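import Fermat.Agent.S56.H846.FLCnt.Basic

/-!
# FL-CNT: `W` is a semisimple `𝔽_p[Γ/W]`-module (Maschke), in group language
(helper846)  Mathlib only, nothing unproved.
-/

set_option autoImplicit false
set_option linter.unusedSectionVars false
set_option linter.style.haveILetI false
set_option linter.unusedVariables false

namespace Fermat.Agent.S56.H846.FLCnt

variable {Γ k Z : Type} [Group Γ] [Field k] [AddCommGroup Z] [Module k Z]

/-- the pair of cocycles -/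
def cc (D : Data Γ k Z) (w : Γ) : Z × Z := (D.c₁ w, D.c₂ w)

namespace Hyp

variable {p : ℕ} [Fact p.Prime] {D : Data Γ k Z} (h : Hyp p D)
include h

theorem cc_one : cc D 1 = 0 := by
  simp [cc, h.isCoc₁.one, h.isCoc₂.one]

theorem cc_mul {w w' : Γ} (hw : w ∈ D.W) (hw' : w' ∈ D.W) :
    cc D (w * w') = cc D w + cc D w' := by
  simp [cc, h.c₁_mul w hw w' hw', h.c₂_mul w hw w' hw']

theorem cc_inv {w : Γ} (hw : w ∈ D.W) : cc D w⁻¹ = - cc D w := by
  simp [cc, h.isCoc₁.inv hw, h.isCoc₂.inv hw]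

theorem cc_conj (g : Γ) {w : Γ} (hw : w ∈ D.W) :
    cc D (g * w * g⁻¹) = (D.ρ g (cc D w).1, D.ρ g (cc D w).2) := by
  simp [cc, h.c₁_conj g w hw, h.c₂_conj g w hw]

theorem cc_eq_zero {w : Γ} (hw : w ∈ D.W) (h0 : cc D w = 0) : w = 1 :=
  h.c_inj w hw (congrArg Prod.fst h0) (congrArg Prod.snd h0)

/-- **Maschke**: every `Γ`-normal subgroup of `W` has a `Γ`-normal complement in `W`. -/
theorem exists_compl [Finite Γ] {X : Subgroup Γ} (hX : X.Normal) (hXW : X ≤ D.W) :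
    ∃ N' : Subgroup Γ, N'.Normal ∧ N' ≤ D.W ∧ (∀ w, w ∈ X → w ∈ N' → w = 1) ∧
      (∀ w ∈ D.W, ∃ x ∈ X, ∃ n ∈ N', w = x * n) := by
  classical
  haveI := h.W_normal
  letI : Module (ZMod p) Z := AddCommGroup.zmodModule h.p_nsmul
  -- the representation of `Γ` on `Z × Z`
  let ρ₂ : Γ →* ((Z × Z) →ₗ[ZMod p] (Z × Z)) :=
    { toFun := fun g => AddMonoidHom.toZModLinearMap p
        (((D.ρ g).prodMap (D.ρ g) : (Z × Z) →ₗ[k] (Z × Z)) : (Z × Z) →+ (Z × Z))
      map_one' := by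
        apply LinearMap.ext
        intro v
        show ((D.ρ 1) v.1, (D.ρ 1) v.2) = v
        rw [map_one]
        rfl
      map_mul' := fun g g' => by
        apply LinearMap.ext
        intro v
        show ((D.ρ (g * g')) v.1, (D.ρ (g * g')) v.2) =
          ((D.ρ g) ((D.ρ g') v.1), (D.ρ g) ((D.ρ g') v.2))
        rw [map_mul]
        rfl }
  have hρ₂ : ∀ (g : Γ) (v : Z × Z), (ρ₂ g : (Z × Z) →ₗ[ZMod p] (Z × Z)) v =
      (D.ρ g v.1, D.ρ g v.2) := fun g v => rfl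
  have hker : D.W ≤ ρ₂.ker := fun w hw => by
    rw [MonoidHom.mem_ker]
    apply LinearMap.ext
    intro v
    rw [hρ₂, h.ρ_W w hw]
    rfl
  let ρq : Representation (ZMod p) (Γ ⧸ D.W) (Z × Z) := QuotientGroup.lift D.W ρ₂ hker
  have hρq : ∀ (g : Γ) (v : Z × Z), (ρq (g : Γ ⧸ D.W) : (Z × Z) →ₗ[ZMod p] (Z × Z)) v =
      (D.ρ g v.1, D.ρ g v.2) := fun g v => rfl
  haveI : NeZero (Nat.card (Γ ⧸ D.W) : ZMod p) := ⟨by
    rw [Ne, ZMod.natCast_eq_zero_iff]
    exact h.W_index⟩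
  -- the subrepresentation defined by `X`
  let XA : AddSubgroup (Z × Z) :=
    { carrier := {v | ∃ x ∈ X, cc D x = v}
      zero_mem' := ⟨1, X.one_mem, h.cc_one⟩
      add_mem' := by
        rintro _ _ ⟨x, hx, rfl⟩ ⟨x', hx', rfl⟩
        exact ⟨x * x', X.mul_mem hx hx', h.cc_mul (hXW hx) (hXW hx')⟩
      neg_mem' := by
        rintro _ ⟨x, hx, rfl⟩
        exact ⟨x⁻¹, X.inv_mem hx, h.cc_inv (hXW hx)⟩ }
  let XS : Subrepresentation ρq :=
    { toSubmodule := AddSubgroup.toZModSubmodule p XA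
      apply_mem_toSubmodule := by
        intro q v hv
        induction q using QuotientGroup.induction_on with
        | H g =>
          obtain ⟨x, hx, rfl⟩ := hv
          refine ⟨g * x * g⁻¹, hX.conj_mem x hx g, ?_⟩
          rw [h.cc_conj g (hXW hx), hρq] }
  obtain ⟨YS, hY⟩ := exists_isCompl XS
  have hinf : XS.toSubmodule ⊓ YS.toSubmodule = ⊥ := by
    rw [← Subrepresentation.toSubmodule_inf, hY.inf_eq_bot]
    rfl
  have hsup : XS.toSubmodule ⊔ YS.toSubmodule = ⊤ := by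
    rw [← Subrepresentation.toSubmodule_sup, hY.sup_eq_top]
    rfl
  -- the complement
  let N' : Subgroup Γ :=
    { carrier := {w | w ∈ D.W ∧ cc D w ∈ YS.toSubmodule}
      one_mem' := ⟨D.W.one_mem, by rw [h.cc_one]; exact Submodule.zero_mem _⟩
      mul_mem' := by
        rintro w w' ⟨hw, hwY⟩ ⟨hw', hwY'⟩
        exact ⟨D.W.mul_mem hw hw', by rw [h.cc_mul hw hw']; exact Submodule.add_mem _ hwY hwY'⟩
      inv_mem' := by
        rintro w ⟨hw, hwY⟩
        exact ⟨D.W.inv_mem hw, by rw [h.cc_inv hw]; exact Submodule.neg_mem _ hwY⟩ }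
  refine ⟨N', ⟨?_⟩, fun w hw => hw.1, ?_, ?_⟩
  · rintro w ⟨hw, hwY⟩ g
    refine ⟨h.W_normal.conj_mem w hw g, ?_⟩
    have := YS.apply_mem_toSubmodule (g : Γ ⧸ D.W) hwY
    rw [hρq] at this
    rw [h.cc_conj g hw]
    exact this
  · rintro w hwX ⟨hw, hwY⟩
    have h1 : cc D w ∈ XS.toSubmodule ⊓ YS.toSubmodule := ⟨⟨w, hwX, rfl⟩, hwY⟩
    rw [hinf, Submodule.mem_bot] at h1
    exact h.cc_eq_zero hw h1
  · intro w hw
    have h1 : cc D w ∈ XS.toSubmodule ⊔ YS.toSubmodule := by rw [hsup]; trivial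
    obtain ⟨v, ⟨x, hx, rfl⟩, v', hv', hsum⟩ := Submodule.mem_sup.mp h1
    refine ⟨x, hx, x⁻¹ * w, ⟨D.W.mul_mem (D.W.inv_mem (hXW hx)) hw, ?_⟩, by group⟩
    rw [h.cc_mul (D.W.inv_mem (hXW hx)) hw, h.cc_inv (hXW hx), ← hsum]
    simpa using hv'

end Hyp

end Fermat.Agent.S56.H846.FLCnt
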