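import Fermat.Agent.S56.H846.FLCnt.Quot
import Fermat.Agent.S56.H846.FLCnt.Maschke

/-!
# FL-CNT: step C3 (single break of `W`) and the final step; proof of `FLCntStatement`
(helper846)  Mathlib only, nothing unproved.
-/

set_option autoImplicit false
set_option linter.unusedSectionVars false
set_option linter.style.haveILetI false
set_option linter.unusedVariables false

namespace Fermat.Agent.S56.H846.FLCnt

variable {Γ k Z : Type} [Group Γ] [Field k] [AddCommGroup Z] [Module k Z]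

namespace Hyp

variable {p : ℕ} [Fact p.Prime] {D : Data Γ k Z} (h : Hyp p D)
include h

/-- every proper `Γ`-normal subgroup of `W` lies in a maximal one -/
theorem exists_max_normal [Finite Γ] {N₀ : Subgroup Γ} (hN₀ : N₀.Normal) (hle : N₀ ≤ D.W)
    (hne : N₀ ≠ D.W) : ∃ N, IsMaxNormal D N ∧ N₀ ≤ N := by
  classical
  let 𝒮 : Set (Subgroup Γ) := {N | N.Normal ∧ N₀ ≤ N ∧ N ≤ D.W ∧ N ≠ D.W}
  have hfin : 𝒮.Finite := Set.toFinite _
  have hne' : 𝒮.Nonempty := ⟨N₀, hN₀, le_rfl, hle, hne⟩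
  obtain ⟨N, hN, hmax⟩ := Set.exists_max_image 𝒮 (fun N => Nat.card N) hfin hne'
  refine ⟨N, ⟨hN.1, hN.2.2.1, hN.2.2.2, fun N' hN' hNN' hN'W => ?_⟩, hN.2.1⟩
  by_cases h' : N' = D.W
  · exact Or.inr h'
  · left
    have := hmax N' ⟨hN', hN.2.1.trans hNN', hN'W, h'⟩
    exact (Subgroup.eq_of_le_of_card_ge hNN' this).symm

theorem exists_first_break [Finite Γ] (hW : D.W ≠ ⊥) :
    ∃ n₁, 1 ≤ n₁ ∧ D.W ≤ D.F ⊥ n₁ ∧ ¬ D.W ≤ D.F ⊥ (n₁ + 1) := by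
  classical
  have hB : ∃ B, D.F ⊥ B ≤ ⊥ := by
    haveI : Fintype Γ := Fintype.ofFinite Γ
    refine ⟨∑ σ : Γ, D.i ⊥ σ, fun σ hσ => ?_⟩
    rw [h.mem_F ⊥ Subgroup.normal_bot bot_le bot_le] at hσ
    rcases hσ with hσ | hσ
    · exact hσ
    · exfalso
      have : D.i ⊥ σ ≤ ∑ σ : Γ, D.i ⊥ σ :=
        Finset.single_le_sum (f := fun σ => D.i ⊥ σ) (fun _ _ => Nat.zero_le _)
          (Finset.mem_univ σ)
      omega
  have hex : ∃ n, ¬ D.W ≤ D.F ⊥ n := by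
    obtain ⟨B, hB⟩ := hB
    exact ⟨B, fun hW' => hW (le_bot_iff.mp (hW'.trans hB))⟩
  have h1 : D.W ≤ D.F ⊥ 1 := h.W_le_wild
  have h0 : D.W ≤ D.F ⊥ 0 := h.W_le_inertia
  set n₀ := Nat.find hex with hn₀
  have hn₀1 : ¬ D.W ≤ D.F ⊥ n₀ := Nat.find_spec hex
  have hn₀2 : 2 ≤ n₀ := by
    by_contra hlt
    have : n₀ = 0 ∨ n₀ = 1 := by omega
    rcases this with h' | h'
    · rw [h'] at hn₀1; exact hn₀1 h0
    · rw [h'] at hn₀1; exact hn₀1 h1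
  have hu : D.W ≤ D.F ⊥ (n₀ - 1) := by
    by_contra hcon
    have := Nat.find_min' hex hcon
    omega
  refine ⟨n₀ - 1, by omega, hu, ?_⟩
  have hn : n₀ - 1 + 1 = n₀ := by omega
  rw [hn]
  exact hn₀1

/-- elements of `W` outside `F ⊥ (n₁ + 1)` have `i = n₁ + 1` -/
theorem i_bot_eq {n₁ : ℕ} (hn₁ : D.W ≤ D.F ⊥ n₁) {σ : Γ} (hσ : σ ∈ D.W)
    (hσ' : σ ∉ D.F ⊥ (n₁ + 1)) : D.i ⊥ σ = n₁ + 1 := by
  have h1 := hn₁ hσ
  rw [h.mem_F ⊥ Subgroup.normal_bot bot_le bot_le] at h1 hσ'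
  push Not at hσ'
  rcases h1 with h1 | h1
  · exact absurd h1 hσ'.1
  · omega

theorem i_bot_ge {n₁ : ℕ} {σ : Γ} (hσ : σ ∈ D.F ⊥ n₁) (hσ1 : σ ≠ 1) : n₁ + 1 ≤ D.i ⊥ σ := by
  rw [h.mem_F ⊥ Subgroup.normal_bot bot_le bot_le] at hσ
  rcases hσ with h1 | h1
  · exact absurd (Subgroup.mem_bot.mp h1) hσ1
  · exact h1

/-- **C3**: `W` has a single break, at `p - 1`. -/
theorem single_break [Finite Γ] (hW : D.W ≠ ⊥) :
    D.W = D.F ⊥ (p - 1) ∧ D.F ⊥ p = ⊥ ∧ D.m ≠ 2 := by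
  classical
  haveI : Fintype Γ := Fintype.ofFinite Γ
  obtain ⟨n₁, hn₁1, hn₁W, hn₁'⟩ := h.exists_first_break hW
  have hp3 := h.p_ge_three
  -- `W⁺`
  have hWplus_le : D.F ⊥ (n₁ + 1) ≤ D.W := by
    rw [h.W_eq_wild]
    exact h.F_anti' ⊥ Subgroup.normal_bot bot_le bot_le (by omega)
  have hWplus_ne : D.F ⊥ (n₁ + 1) ≠ D.W := fun h' => hn₁' (by rw [h'])
  have hWplus_normal : (D.F ⊥ (n₁ + 1)).Normal :=
    h.F_normal ⊥ Subgroup.normal_bot bot_le bot_le _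
  -- a maximal `N` containing `W⁺`
  obtain ⟨N, M, hWN⟩ := h.exists_max_normal hWplus_normal hWplus_le hWplus_ne
  obtain ⟨σ, hσ, hσN⟩ := h.max_exists_not_mem M
  have hN1 := h.max_le_wild M
  have hNpos : 0 < Nat.card N := Nat.card_pos
  have e1 : n₁ + 1 = p := by
    have hq := h.quot_formula N M.normal M.le hN1 σ hσN
    rw [finsum_mem_eq_sum, h.i_eq_p M hσ hσN] at hq
    have hterm : ∀ w ∈ Finset.univ.filter (· ∈ N), D.i ⊥ (σ * w) = n₁ + 1 := by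
      intro w hw
      have hwN : w ∈ N := (Finset.mem_filter.mp hw).2
      have h1 : σ * w ∈ D.W := D.W.mul_mem hσ (M.le hwN)
      have h2 : σ * w ∉ N := fun h' => hσN ((Subgroup.mul_mem_cancel_right N hwN).mp h')
      exact h.i_bot_eq hn₁W h1 (fun h' => h2 (hWN h'))
    rw [Finset.sum_congr rfl hterm, Finset.sum_const, smul_eq_mul, ← card_eq_filter] at hq
    exact Nat.eq_of_mul_eq_mul_left hNpos hq
  have hm2 : D.m ≠ 2 := h.m_ne_two_of_max M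
  -- `W⁺ = ⊥`
  have hbot : D.F ⊥ (n₁ + 1) = ⊥ := by
    by_contra hne
    obtain ⟨N'', hN''normal, hN''W, hdisj, hsum⟩ := h.exists_compl hWplus_normal hWplus_le
    have hN''ne : N'' ≠ D.W := by
      intro h'
      apply hne
      rw [eq_bot_iff]
      intro w hw
      rw [Subgroup.mem_bot]
      exact hdisj w hw (by rw [h']; exact hWplus_le hw)
    obtain ⟨N', M', hN''N'⟩ := h.exists_max_normal hN''normal hN''W hN''ne
    -- an element of `W⁺` outside `N'`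
    obtain ⟨σ', hσ', hσ'N⟩ : ∃ σ' ∈ D.F ⊥ (n₁ + 1), σ' ∉ N' := by
      by_contra hcon
      push Not at hcon
      apply M'.ne
      refine le_antisymm M'.le (fun w hw => ?_)
      obtain ⟨x, hx, n, hn, rfl⟩ := hsum w hw
      exact N'.mul_mem (hcon x hx) (hN''N' hn)
    have hσ'W : σ' ∈ D.W := hWplus_le hσ'
    have hN'1 := h.max_le_wild M'
    have hq := h.quot_formula N' M'.normal M'.le hN'1 σ' hσ'N
    rw [finsum_mem_eq_sum, h.i_eq_p M' hσ'W hσ'N] at hq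
    have hterm : ∀ w ∈ Finset.univ.filter (· ∈ N'),
        p + (if w = 1 then 1 else 0) ≤ D.i ⊥ (σ' * w) := by
      intro w hw
      have hwN : w ∈ N' := (Finset.mem_filter.mp hw).2
      have h1 : σ' * w ∈ D.W := D.W.mul_mem hσ'W (M'.le hwN)
      have h2 : σ' * w ≠ 1 := fun h' => hσ'N (by
        have : σ' = w⁻¹ := mul_eq_one_iff_eq_inv.mp h'
        rw [this]
        exact N'.inv_mem hwN)
      by_cases hw1 : w = 1
      · rw [if_pos hw1, hw1, mul_one]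
        have := h.i_bot_ge hσ' (fun h' => hσ'N (h' ▸ N'.one_mem))
        omega
      · rw [if_neg hw1]
        have := h.i_bot_ge (hn₁W h1) h2
        omega
    have hsum' := Finset.sum_le_sum hterm
    rw [hq, Finset.sum_add_distrib, Finset.sum_const, smul_eq_mul, ← card_eq_filter,
      Finset.sum_ite_eq' ] at hsum'
    have h1mem : (1 : Γ) ∈ Finset.univ.filter (· ∈ N') := by
      simp [N'.one_mem]
    rw [if_pos h1mem] at hsum'
    omega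
  have hn₁p : n₁ = p - 1 := by omega
  refine ⟨?_, ?_, hm2⟩
  · rw [← hn₁p]
    refine le_antisymm hn₁W ?_
    rw [h.W_eq_wild]
    exact h.F_anti' ⊥ Subgroup.normal_bot bot_le bot_le hn₁1
  · rw [← e1]
    exact hbot

theorem m_cast_ne_zero : (D.m : k) ≠ 0 := by
  haveI := h.charP
  rw [Ne, CharP.cast_eq_zero_iff k p]
  intro hdvd
  have h1 := Nat.Coprime.eq_one_of_dvd h.m_coprime_p.symm hdvd
  have := (h.p_prime).one_lt
  omega

/-- under a single break, `τ₀` commutes with no non-trivial element of `W` -/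
theorem eq_one_of_comm_eq_one (hWeq : D.W = D.F ⊥ (p - 1)) (hbot : D.F ⊥ p = ⊥) {w : Γ}
    (hw : w ∈ D.W) (hcomm : D.τ₀ ^ 1 * w * (D.τ₀ ^ 1)⁻¹ * w⁻¹ = 1) : w = 1 := by
  by_contra hne
  have hp3 := h.p_ge_three
  have hpp : p - 1 + 1 = p := by omega
  have h1 : w ∈ D.F ⊥ (p - 1) := hWeq ▸ hw
  have h2 : w ∉ D.F ⊥ (p - 1 + 1) := by
    rw [hpp, hbot, Subgroup.mem_bot]
    exact hne
  have hrule := h.comm_rule ⊥ Subgroup.normal_bot bot_le bot_le (p - 1) (by omega) w h1 h2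
    D.τ₀ h.τ₀_mem
  rw [pow_one] at hcomm
  rw [hcomm] at hrule
  have h3 : D.τ₀ ^ (p - 1) ∈ D.W := by
    rw [h.W_eq_wild]
    exact hrule.1 (Subgroup.one_mem _)
  have h4 := (h.τ₀_pow (p - 1)).1 h3
  have h5 : (p - 1) * D.m ≤ p - 1 := Nat.le_of_dvd (by omega) h4
  have h6 := h.m_ge_two
  nlinarith

/-- under a single break, the `ℓ₁`-coordinates vanish on `W` -/
theorem ℓ₁_eq_zero (hWeq : D.W = D.F ⊥ (p - 1)) (hbot : D.F ⊥ p = ⊥) {w : Γ} (hw : w ∈ D.W) :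
    D.ℓ₁ (D.c₁ w) = 0 ∧ D.ℓ₁ (D.c₂ w) = 0 := by
  have hψ1 : D.ψ₀ ^ 1 ≠ 1 := by rw [pow_one]; exact h.ψ₀_ne_one
  set P := avg (D.τ₀ ^ 1) w D.m with hP
  have hPW : P ∈ D.W := h.avg_mem _ hw _
  have hcomm : D.τ₀ ^ 1 * P * (D.τ₀ ^ 1)⁻¹ * P⁻¹ = 1 := by
    refine h.c_inj _ (D.W.mul_mem (h.W_normal.conj_mem P hPW _) (D.W.inv_mem hPW)) ?_ ?_
    · apply h.eq_of_coord
      · rw [h.coc_comm_ℓ₁ h.isCoc₁ 1 hPW, map_zero]
      · rw [h.coc_comm_ℓp h.isCoc₁ 1 hPW, h.coc_avg_ℓp h.isCoc₁ 1 hψ1 hw, mul_zero, map_zero]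
      · rw [h.coc_comm_ℓm h.isCoc₁ 1 hPW, h.coc_avg_ℓm h.isCoc₁ 1 hψ1 hw, mul_zero, map_zero]
    · apply h.eq_of_coord
      · rw [h.coc_comm_ℓ₁ h.isCoc₂ 1 hPW, map_zero]
      · rw [h.coc_comm_ℓp h.isCoc₂ 1 hPW, h.coc_avg_ℓp h.isCoc₂ 1 hψ1 hw, mul_zero, map_zero]
      · rw [h.coc_comm_ℓm h.isCoc₂ 1 hPW, h.coc_avg_ℓm h.isCoc₂ 1 hψ1 hw, mul_zero, map_zero]
  have hP1 : P = 1 := h.eq_one_of_comm_eq_one hWeq hbot hPW hcomm
  have e1 := h.coc_avg_ℓ₁ h.isCoc₁ 1 hw D.m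
  have e2 := h.coc_avg_ℓ₁ h.isCoc₂ 1 hw D.m
  rw [← hP, hP1, h.isCoc₁.one, map_zero] at e1
  rw [← hP, hP1, h.isCoc₂.one, map_zero] at e2
  constructor
  · rcases mul_eq_zero.mp e1.symm with h' | h'
    · exact absurd h' h.m_cast_ne_zero
    · exact h'
  · rcases mul_eq_zero.mp e2.symm with h' | h'
    · exact absurd h' h.m_cast_ne_zero
    · exact h'

end Hyp

end Fermat.Agent.S56.H846.FLCnt

namespace Fermat.Agent.S56.H846

open FLCnt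

/-- **FL-CNT**: the abstract count. -/
theorem flCnt : FLCntStatement := by
  intro p _ Γ k Z _ _ _ _ _ D h
  by_cases hW : D.W = ⊥
  · refine ⟨1, 0, Or.inl one_ne_zero, fun w hw => ?_⟩
    rw [hW, Subgroup.mem_bot] at hw
    rw [hw, h.isCoc₁.one, h.isCoc₂.one]
    simp
  obtain ⟨hWeq, hbot, hm2⟩ := h.single_break hW
  obtain ⟨w₀, hw₀, hgen⟩ := h.cyc hm2 hWeq hbot
  -- choice of `(a₁, a₂)`
  obtain ⟨a₁, a₂, hne, hzero⟩ : ∃ a₁ a₂ : k, (a₁ ≠ 0 ∨ a₂ ≠ 0) ∧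
      a₁ * D.ℓp (D.c₁ w₀) + a₂ * D.ℓp (D.c₂ w₀) = 0 := by
    by_cases hx : D.ℓp (D.c₁ w₀) = 0 ∧ D.ℓp (D.c₂ w₀) = 0
    · exact ⟨1, 0, Or.inl one_ne_zero, by rw [hx.1, hx.2]; ring⟩
    · refine ⟨D.ℓp (D.c₂ w₀), - D.ℓp (D.c₁ w₀), ?_, by ring⟩
      by_contra hcon
      push Not at hcon
      exact hx ⟨neg_eq_zero.mp hcon.2, hcon.1⟩
  refine ⟨a₁, a₂, hne, ?_⟩
  set c : Γ → Z := fun w => a₁ • D.c₁ w + a₂ • D.c₂ w with hc
  have hcoc : IsCoc D c :=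
    ⟨fun w hw w' hw' => by
      simp only [hc, h.c₁_mul w hw w' hw', h.c₂_mul w hw w' hw', smul_add]
      abel,
     fun g w hw => by
      simp only [hc, h.c₁_conj g w hw, h.c₂_conj g w hw, map_add, map_smul]⟩
  have hcp : ∀ w, D.ℓp (c w) = a₁ * D.ℓp (D.c₁ w) + a₂ * D.ℓp (D.c₂ w) := fun w => by
    simp only [hc, map_add, map_smul, smul_eq_mul]
  -- the subgroup where the `ψ`-coordinate vanishes
  let H : Subgroup Γ :=
    { carrier := {w | w ∈ D.W ∧ D.ℓp (c w) = 0}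
      one_mem' := ⟨D.W.one_mem, by rw [hcoc.one, map_zero]⟩
      mul_mem' := by
        rintro w w' ⟨hw, hw0⟩ ⟨hw', hw0'⟩
        exact ⟨D.W.mul_mem hw hw', by rw [hcoc.mul w hw w' hw', map_add, hw0, hw0', add_zero]⟩
      inv_mem' := by
        rintro w ⟨hw, hw0⟩
        exact ⟨D.W.inv_mem hw, by rw [hcoc.inv hw, map_neg, hw0, neg_zero]⟩ }
  have hH : D.W ≤ H := by
    refine hgen H ⟨hw₀, by rw [hcp]; exact hzero⟩ ?_ ?_
    · rintro w ⟨hw, hw0⟩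
      exact ⟨h.W_normal.conj_mem w hw _, by rw [hcoc.conj _ w hw, h.tame_ℓp, hw0, mul_zero]⟩
    · rintro w ⟨hw, hw0⟩
      refine ⟨h.W_normal.conj_mem w hw _, ?_⟩
      rw [hcoc.conj _ w hw, map_pow, pow_two, Module.End.mul_apply, h.frob_ℓp, h.frob_ℓm, hw0,
        mul_zero, mul_zero]
  have hp0 : ∀ w ∈ D.W, D.ℓp (c w) = 0 := fun w hw => (hH hw).2
  have hm0 : ∀ w ∈ D.W, D.ℓm (c w) = 0 := by
    intro w hw
    have hw' : D.φ⁻¹ * w * D.φ ∈ D.W := by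
      have := h.W_normal.conj_mem w hw D.φ⁻¹
      rwa [inv_inv] at this
    have e : w = D.φ * (D.φ⁻¹ * w * D.φ) * D.φ⁻¹ := by group
    rw [e, hcoc.conj _ _ hw', h.frob_ℓm, hp0 _ hw', mul_zero]
  intro w hw
  have h10 : D.ℓ₁ (c w) = 0 := by
    obtain ⟨e1, e2⟩ := h.ℓ₁_eq_zero hWeq hbot hw
    simp only [hc, map_add, map_smul, e1, e2, smul_zero, add_zero]
  show c w = 0
  exact h.eq_of_coord (by rw [h10, map_zero]) (by rw [hp0 w hw, map_zero])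
    (by rw [hm0 w hw, map_zero])

end Fermat.Agent.S56.H846
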