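import Mathlib

/-!
# Row S56, wall W-FLAT-SS, piece FL-CNT: the count (C1–C4) as ABSTRACT group theory
(helper846; blueprint `coord/S56-FLATSS-helper426.md` §3 on `origin/helper426`)

Mathlib only.  Nothing unproved in this file (only `def … : Prop` and a `structure`).

## Dictionary (what the abstract objects are in `FL.RamCountStatement`)

* `Γ`  = Galois group of `B/A`; `Z` = trace-zero endomorphisms of `V` with `ρ = Ad ρ_V`;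
* `W`  = `ker ρ_V`; `c₁ c₂` = the two cocycles (only their restriction to `W` is used:
  there they are additive, `Γ`-equivariant and jointly injective);
* for a normal subgroup `N ≤ W`, `N ≤ Γ₁`: `F N n` = the `n`-th lower ramification group of `Γ`
  acting on the discrete valuation ring `B^N` (it contains `N`), `i N σ` = `i_{Γ/N}(σ N)`
  (junk for `σ ∈ N`); `F ⊥ n = Γ_n`, `i ⊥ = i_Γ`;  `Γ₀ = F ⊥ 0`, `Γ₁ = F ⊥ 1`;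
* `τ₀ ∈ Γ₀` = a generator of tame inertia, `φ` = a Frobenius lift,
  `m = ord ψ`, `ψ = χ/χ'`, `e₀ = (p - 1) m = |ρ_V(Γ₀)|`, `ψ₀ = ψ(τ₀)`;
* `ℓ₁ ℓp ℓm` = the coordinates of `Z` in the basis `E₁₁ - E₂₂, E₁₂, E₂₁` (eigenbasis of inertia).

## Who supplies which hypothesis

* FL-SS (structure of `ρ_V`): `W_index`, `coord_inj`, `tame_*`, `frob_*`, `m_dvd`, `m_odd`,
  `τ₀_mem`, `τ₀_pow`, `ψ₀_pow`, `card_inertia`;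
* FL-BR / trivial: `W_normal`, `ρ_W`, `c*_mul`, `c*_conj`, `c_inj`;
* FL-RAM (ramification groups of a DVR with group action, applied to `B^N`):
  `wild_pgroup`, `tame_no_p` (`Γ₀/Γ₁ ↪ κˣ`), `frob_comm` (`φ` induces `x ↦ x ^ p` on `κ`, so it
  commutes with everything modulo inertia), `F_normal`, `mem_F`, `F_zero`, `F_one`, `F_one'`,
  `comm_rule` (from `θ_n(τ σ τ⁻¹) = θ₀(τ)ⁿ θ_n(σ)`, `θ₀`, `θ_n` injective),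
  `quot_formula` (Serre, Local Fields IV §1 Prop. 3, with `e(B/B^N) = |N|` as `N ≤ Γ₀`);
* FL-D + Hilbert's formula R1 (`j = m |Γ₁| + 1`): `D_bound`;
* FL-CYC (`FLCycStatement` below, applied to `θ_{p-1} : W ↪ 𝔪^{p-1}/𝔪^p`): `cyc`.
-/

set_option autoImplicit false

namespace Fermat.Agent.S56.H846.FLCnt

/-- The data of the abstract count. -/
structure Data (Γ k Z : Type) [Group Γ] [Field k] [AddCommGroup Z] [Module k Z] where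
  /-- the adjoint action -/
  ρ : Γ →* Module.End k Z
  /-- the kernel of the residual representation -/
  W : Subgroup Γ
  /-- first cocycle (used on `W` only) -/
  c₁ : Γ → Z
  /-- second cocycle (used on `W` only) -/
  c₂ : Γ → Z
  /-- `F N n`: `n`-th lower ramification group of the quotient by `N`, pulled back to `Γ` -/
  F : Subgroup Γ → ℕ → Subgroup Γ
  /-- `i N σ = i_{Γ/N}(σ N)` -/
  i : Subgroup Γ → Γ → ℕ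
  /-- generator of tame inertia -/
  τ₀ : Γ
  /-- Frobenius lift -/
  φ : Γ
  /-- order of `ψ` -/
  m : ℕ
  /-- `ψ(τ₀)` -/
  ψ₀ : k
  /-- coordinate on the line fixed by inertia -/
  ℓ₁ : Z →ₗ[k] k
  /-- coordinate on the `ψ`-line -/
  ℓp : Z →ₗ[k] k
  /-- coordinate on the `ψ⁻¹`-line -/
  ℓm : Z →ₗ[k] k
  /-- Frobenius constant -/
  a : k
  /-- Frobenius constant -/
  b : k

variable {Γ k Z : Type} [Group Γ] [Field k] [AddCommGroup Z] [Module k Z]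

/-- The hypotheses of the abstract count. -/
structure Hyp (p : ℕ) (D : Data Γ k Z) : Prop where
  p_odd : p ≠ 2
  charP : CharP k p
  /- the subgroup `W` and the cocycles -/
  W_normal : D.W.Normal
  W_index : ¬ p ∣ D.W.index
  ρ_W : ∀ w ∈ D.W, D.ρ w = 1
  c₁_mul : ∀ w ∈ D.W, ∀ w' ∈ D.W, D.c₁ (w * w') = D.c₁ w + D.c₁ w'
  c₂_mul : ∀ w ∈ D.W, ∀ w' ∈ D.W, D.c₂ (w * w') = D.c₂ w + D.c₂ w'
  c₁_conj : ∀ (g : Γ), ∀ w ∈ D.W, D.c₁ (g * w * g⁻¹) = D.ρ g (D.c₁ w)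
  c₂_conj : ∀ (g : Γ), ∀ w ∈ D.W, D.c₂ (g * w * g⁻¹) = D.ρ g (D.c₂ w)
  c_inj : ∀ w ∈ D.W, D.c₁ w = 0 → D.c₂ w = 0 → w = 1
  /- the shape of `Z` -/
  coord_inj : ∀ z : Z, D.ℓ₁ z = 0 → D.ℓp z = 0 → D.ℓm z = 0 → z = 0
  tame_ℓ₁ : ∀ z, D.ℓ₁ (D.ρ D.τ₀ z) = D.ℓ₁ z
  tame_ℓp : ∀ z, D.ℓp (D.ρ D.τ₀ z) = D.ψ₀ * D.ℓp z
  tame_ℓm : ∀ z, D.ℓm (D.ρ D.τ₀ z) = D.ψ₀⁻¹ * D.ℓm z
  frob_ℓ₁ : ∀ z, D.ℓ₁ (D.ρ D.φ z) = - D.ℓ₁ z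
  frob_ℓp : ∀ z, D.ℓp (D.ρ D.φ z) = D.a * D.ℓm z
  frob_ℓm : ∀ z, D.ℓm (D.ρ D.φ z) = D.b * D.ℓp z
  /- tame inertia -/
  m_dvd : D.m ∣ p + 1
  m_odd : Odd ((p + 1) / D.m)
  τ₀_mem : D.τ₀ ∈ D.F ⊥ 0
  τ₀_pow : ∀ j : ℕ, D.τ₀ ^ j ∈ D.W ↔ (p - 1) * D.m ∣ j
  ψ₀_pow : ∀ j : ℕ, D.ψ₀ ^ j = 1 ↔ D.m ∣ j
  card_inertia : Nat.card (D.F ⊥ 0) = (p - 1) * D.m * Nat.card (D.W ⊓ D.F ⊥ 0 : Subgroup Γ)
  wild_pgroup : IsPGroup p (D.F ⊥ 1)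
  tame_no_p : ∀ σ ∈ D.F ⊥ 0, σ ^ p ∈ D.F ⊥ 1 → σ ∈ D.F ⊥ 1
  frob_comm : ∀ w ∈ D.W, D.φ * w * D.φ⁻¹ * w⁻¹ ∈ D.F ⊥ 0
  /- the ramification filtrations of the quotients `Γ/N`, `N ≤ W ∩ Γ₁` normal in `Γ` -/
  F_normal : ∀ N : Subgroup Γ, N.Normal → N ≤ D.W → N ≤ D.F ⊥ 1 → ∀ n, (D.F N n).Normal
  mem_F : ∀ N : Subgroup Γ, N.Normal → N ≤ D.W → N ≤ D.F ⊥ 1 →
    ∀ n σ, σ ∈ D.F N n ↔ σ ∈ N ∨ n + 1 ≤ D.i N σ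
  F_zero : ∀ N : Subgroup Γ, N.Normal → N ≤ D.W → N ≤ D.F ⊥ 1 → D.F ⊥ 0 ≤ D.F N 0
  F_one : ∀ N : Subgroup Γ, N.Normal → N ≤ D.W → N ≤ D.F ⊥ 1 → D.F ⊥ 1 ≤ D.F N 1
  F_one' : ∀ N : Subgroup Γ, N.Normal → N ≤ D.W → N ≤ D.F ⊥ 1 → D.F N 1 ⊓ D.F ⊥ 0 ≤ D.F ⊥ 1
  comm_rule : ∀ N : Subgroup Γ, N.Normal → N ≤ D.W → N ≤ D.F ⊥ 1 →
    ∀ n, 1 ≤ n → ∀ σ ∈ D.F N n, σ ∉ D.F N (n + 1) → ∀ τ ∈ D.F ⊥ 0,
      (τ * σ * τ⁻¹ * σ⁻¹ ∈ D.F N (n + 1) ↔ τ ^ n ∈ D.F N 1)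
  quot_formula : ∀ N : Subgroup Γ, N.Normal → N ≤ D.W → N ≤ D.F ⊥ 1 → ∀ σ, σ ∉ N →
    ∑ᶠ (w : Γ) (_ : w ∈ N), D.i ⊥ (σ * w) = Nat.card N * D.i N σ
  /- the different bound (Theorem D + Hilbert's formula) -/
  D_bound : D.F ⊥ 1 ≠ ⊥ →
    (p - 1) * ∑ᶠ (σ : Γ) (_ : σ ∈ D.F ⊥ 0) (_ : σ ≠ 1), D.i ⊥ σ ≤ p * Nat.card (D.F ⊥ 0)
  /- C4: a single break at `p - 1` makes `W` a cyclic module -/
  cyc : D.m ≠ 2 → D.W = D.F ⊥ (p - 1) → D.F ⊥ p = ⊥ →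
    ∃ w₀ ∈ D.W, ∀ H : Subgroup Γ, w₀ ∈ H → (∀ h ∈ H, D.τ₀ * h * D.τ₀⁻¹ ∈ H) →
      (∀ h ∈ H, D.φ ^ 2 * h * (D.φ ^ 2)⁻¹ ∈ H) → D.W ≤ H

end Fermat.Agent.S56.H846.FLCnt

namespace Fermat.Agent.S56.H846

open FLCnt

/-- **FL-CNT** (C1–C3 + final step of the count, abstract).  Under `FLCnt.Hyp` the two cocycles
are `k`-linearly dependent on `W`. -/
def FLCntStatement : Prop :=
  ∀ (p : ℕ) [Fact p.Prime] (Γ k Z : Type) [Group Γ] [Finite Γ] [Field k] [AddCommGroup Z]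
    [Module k Z] (D : Data Γ k Z), Hyp p D →
    ∃ a₁ a₂ : k, (a₁ ≠ 0 ∨ a₂ ≠ 0) ∧ ∀ w ∈ D.W, a₁ • D.c₁ w + a₂ • D.c₂ w = 0

/-- **FL-CYC** (C4, abstract).  `κ` a finite field of characteristic `p` (the residue field of
`B`), `θ : W ↪ κ` additive (`θ_{p-1}`), tame inertia acting through multiplication by `μ` of exact
order `m`, `2 < m ∣ p + 1`, and Frobenius acting `p`-semilinearly.  Then `W` is generated, as a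
group normalised by `τ₀` and `φ²`, by a single element. -/
def FLCycStatement : Prop :=
  ∀ (p : ℕ) [Fact p.Prime] (Γ : Type) [Group Γ] [Finite Γ] (κ : Type) [Field κ] [Finite κ]
    [CharP κ p] (W : Subgroup Γ) (τ₀ φ : Γ) (θ : Γ → κ) (μ c : κ) (m : ℕ),
    W.Normal →
    (∀ w ∈ W, ∀ w' ∈ W, θ (w * w') = θ w + θ w') →
    (∀ w ∈ W, θ w = 0 → w = 1) →
    (∀ w ∈ W, θ (τ₀ * w * τ₀⁻¹) = μ * θ w) →
    (∀ w ∈ W, θ (φ * w * φ⁻¹) = c * θ w ^ p) →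
    (∀ j : ℕ, μ ^ j = 1 ↔ m ∣ j) → m ∣ p + 1 → 2 < m →
    ∃ w₀ ∈ W, ∀ H : Subgroup Γ, w₀ ∈ H → (∀ h ∈ H, τ₀ * h * τ₀⁻¹ ∈ H) →
      (∀ h ∈ H, φ ^ 2 * h * (φ ^ 2)⁻¹ ∈ H) → W ≤ H

end Fermat.Agent.S56.H846
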