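import Mathlib

/-!
# FL-CNT: the arithmetic of the break of an irreducible quotient (helper846)
Mathlib only, nothing unproved.
-/

set_option autoImplicit false

namespace Fermat.Agent.S56.H846.FLCnt

/-- Claim A: the break of an irreducible quotient is not divisible by `e₀ = (p - 1) m`. -/
theorem arith_A {p m y u : ℕ} (hp : 3 ≤ p) (hm : 2 ≤ m) (hy : 2 ≤ y) (hu : 1 ≤ u)
    (hb : y * (u + 1) ≤ (m + 1) * (y + 1)) : ¬ (p - 1) * m ∣ u := by
  rintro ⟨t, ht⟩
  have ht1 : 1 ≤ t := by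
    rcases Nat.eq_zero_or_pos t with h0 | h0
    · rw [h0, mul_zero] at ht; omega
    · exact h0
  have h2 : 2 * m ≤ u := by
    rw [ht]
    calc 2 * m = 2 * m * 1 := by ring
      _ ≤ (p - 1) * m * t := Nat.mul_le_mul (Nat.mul_le_mul (by omega) le_rfl) ht1
  have h3 : y * (2 * m + 1) ≤ (m + 1) * (y + 1) :=
    le_trans (Nat.mul_le_mul le_rfl (by omega)) hb
  have h4 : 2 * m ≤ m * y := by
    calc 2 * m = m * 2 := by ring
      _ ≤ m * y := Nat.mul_le_mul le_rfl hy
  nlinarith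

/-- The break is `p - 1`. -/
theorem arith_main {p m y u : ℕ} (hp : p.Prime) (hp3 : 3 ≤ p) (hm2 : 2 ∣ m) (hmd : m ∣ p + 1)
    (hmo : Odd ((p + 1) / m)) (hx : ∃ d, 1 ≤ d ∧ y + 1 = p ^ d) (hx2 : y + 1 = p → m ∣ 2)
    (hu : 1 ≤ u) (hB : ∀ j : ℕ, (p - 1) * m ∣ j * u ↔ m ∣ j)
    (hb : y * (u + 1) ≤ (m + 1) * (y + 1)) : u = p - 1 ∧ m ≠ 2 := by
  have hm0 : 0 < m := by
    rcases Nat.eq_zero_or_pos m with h0 | h0
    · rw [h0, zero_dvd_iff] at hmd; omega
    · exact h0
  have hmge : 2 ≤ m := Nat.le_of_dvd hm0 hm2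
  have hmle : m ≤ p + 1 := Nat.le_of_dvd (by omega) hmd
  have hp1 : 0 < p - 1 := by omega
  -- `(p - 1) ∣ u`
  have h1 : (p - 1) ∣ u := by
    have := (hB m).2 dvd_rfl
    rw [mul_comm (p - 1) m] at this
    exact Nat.dvd_of_mul_dvd_mul_left hm0 this
  obtain ⟨c, hc⟩ := h1
  have hc1 : 1 ≤ c := by
    rcases Nat.eq_zero_or_pos c with h0 | h0
    · rw [h0, mul_zero] at hc; omega
    · exact h0
  -- `c` is coprime to `m`
  have hcop : Nat.Coprime c m := by
    set g := Nat.gcd c m with hg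
    have hgm : g ∣ m := Nat.gcd_dvd_right c m
    have hgc : g ∣ c := Nat.gcd_dvd_left c m
    obtain ⟨j, hj⟩ := hgm
    obtain ⟨c', hc'⟩ := hgc
    have hg0 : 0 < g := Nat.gcd_pos_of_pos_right c hm0
    have h2 : (p - 1) * m ∣ j * u := by
      refine ⟨c', ?_⟩
      rw [hc, hj, hc']
      ring
    have h3 : m ∣ j := (hB j).1 h2
    have hj0 : 0 < j := by
      rcases Nat.eq_zero_or_pos j with h0 | h0
      · rw [h0, mul_zero] at hj; omega
      · exact h0
    have h4 : m ≤ j := Nat.le_of_dvd hj0 h3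
    have h5 : g * j ≤ 1 * j := by
      rw [one_mul, ← hj]; exact h4
    have h6 : g ≤ 1 := Nat.le_of_mul_le_mul_right h5 hj0
    have : g = 1 := by omega
    exact this
  -- `c` is odd
  have hcodd : ¬ 2 ∣ c := by
    intro h2
    have := Nat.dvd_gcd h2 hm2
    rw [hcop.gcd_eq_one] at this
    omega
  obtain ⟨d, hd1, hd⟩ := hx
  have hyp : p ≤ y + 1 := by
    rw [hd]
    calc p = p ^ 1 := (pow_one p).symm
      _ ≤ p ^ d := Nat.pow_le_pow_right (by omega) hd1
  by_cases hm : m = 2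
  · -- `m = 2` is impossible
    exfalso
    subst hm
    have hu' : p ≤ u + 1 := by
      rw [hc]
      have : (p - 1) * 1 ≤ (p - 1) * c := Nat.mul_le_mul le_rfl hc1
      omega
    have h3 : y * p ≤ 3 * (y + 1) := le_trans (Nat.mul_le_mul le_rfl hu') hb
    have hp5 : p ≠ 3 := by
      intro h3'
      subst h3'
      norm_num at hmo
    have hp4 : p ≠ 4 := by
      intro h4
      subst h4
      exact absurd hp (by decide)
    have hp5' : 5 ≤ p := by omega
    have h4 : y * 5 ≤ y * p := Nat.mul_le_mul le_rfl hp5'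
    omega
  · refine ⟨?_, hm⟩
    have hm4 : 4 ≤ m := by
      obtain ⟨t, ht⟩ := hm2
      omega
    have hnd : ¬ m ∣ 2 := fun h => by
      have := Nat.le_of_dvd (by norm_num) h
      omega
    have hd2 : 2 ≤ d := by
      rcases Nat.lt_or_ge d 2 with h | h
      · exfalso
        have : d = 1 := by omega
        rw [this, pow_one] at hd
        exact hnd (hx2 hd)
      · exact h
    have hy2 : p * p ≤ y + 1 := by
      rw [hd]
      calc p * p = p ^ 2 := (sq p).symm
        _ ≤ p ^ d := Nat.pow_le_pow_right (by omega) hd2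
    have hy9 : 9 ≤ y + 1 := le_trans (by nlinarith) hy2
    by_contra hne
    have hc3 : 3 ≤ c := by
      rcases Nat.lt_or_ge c 3 with h | h
      · exfalso
        interval_cases c
        · exact hne (by rw [hc, mul_one])
        · exact hcodd dvd_rfl
      · exact h
    have hu3 : 3 * (p - 1) ≤ u := by
      rw [hc, mul_comm 3]
      exact Nat.mul_le_mul le_rfl hc3
    have h5 : y * (3 * (p - 1) + 1) ≤ (p + 2) * (y + 1) :=
      le_trans (Nat.mul_le_mul le_rfl (by omega))
        (le_trans hb (Nat.mul_le_mul (by omega) le_rfl))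
    obtain ⟨q, hq⟩ : ∃ q, p = q + 3 := ⟨p - 3, by omega⟩
    subst hq
    have h6 : 3 * (q + 3 - 1) + 1 = 3 * q + 7 := by omega
    rw [h6] at h5
    nlinarith

end Fermat.Agent.S56.H846.FLCnt
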