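import Fermat.Agent.S56.H846.FLCnt.Spec

/-!
# FL-CNT: basic consequences of `FLCnt.Hyp` and step C1 (`W = Γ₁`)
(helper846)  Mathlib only, nothing unproved.
-/

set_option autoImplicit false
set_option linter.unusedSectionVars false
set_option linter.style.haveILetI false
set_option linter.unusedVariables false

namespace Fermat.Agent.S56.H846.FLCnt

variable {Γ k Z : Type} [Group Γ] [Field k] [AddCommGroup Z] [Module k Z]

/-- If `x ^ a` and `x ^ b` lie in a subgroup and `a`, `b` are coprime, then so does `x`. -/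
theorem mem_of_pow_mem_coprime (H : Subgroup Γ) (x : Γ) {a b : ℕ} (hab : Nat.Coprime a b)
    (ha : x ^ a ∈ H) (hb : x ^ b ∈ H) : x ∈ H := by
  have h1 : (1 : ℤ) = a * Nat.gcdA a b + b * Nat.gcdB a b := by
    have := Nat.gcd_eq_gcd_ab a b
    rw [hab.gcd_eq_one] at this
    exact_mod_cast this
  have h2 : x = (x ^ a) ^ (Nat.gcdA a b) * (x ^ b) ^ (Nat.gcdB a b) := by
    rw [← zpow_natCast, ← zpow_natCast, ← zpow_mul, ← zpow_mul, ← zpow_add, ← h1, zpow_one]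
  rw [h2]
  exact H.mul_mem (H.zpow_mem ha _) (H.zpow_mem hb _)

/-- `c` is additive and equivariant on `W`. -/
structure IsCoc (D : Data Γ k Z) (c : Γ → Z) : Prop where
  mul : ∀ w ∈ D.W, ∀ w' ∈ D.W, c (w * w') = c w + c w'
  conj : ∀ (g : Γ), ∀ w ∈ D.W, c (g * w * g⁻¹) = D.ρ g (c w)

namespace IsCoc

variable {D : Data Γ k Z} {c : Γ → Z} (hc : IsCoc D c)
include hc

theorem one : c 1 = 0 := by
  have := hc.mul 1 D.W.one_mem 1 D.W.one_mem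
  simpa using this

theorem inv {w : Γ} (hw : w ∈ D.W) : c w⁻¹ = - c w := by
  have := hc.mul w hw w⁻¹ (D.W.inv_mem hw)
  rw [mul_inv_cancel, hc.one] at this
  exact eq_neg_of_add_eq_zero_right this.symm

theorem div {w w' : Γ} (hw : w ∈ D.W) (hw' : w' ∈ D.W) : c (w * w'⁻¹) = c w - c w' := by
  rw [hc.mul w hw _ (D.W.inv_mem hw'), hc.inv hw', sub_eq_add_neg]

theorem pow {w : Γ} (hw : w ∈ D.W) (n : ℕ) : c (w ^ n) = n • c w := by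
  induction n with
  | zero => simp [hc.one]
  | succ n ih => rw [pow_succ, hc.mul _ (D.W.pow_mem hw n) _ hw, ih, succ_nsmul]

theorem comm (hW : D.W.Normal) (g : Γ) {w : Γ} (hw : w ∈ D.W) :
    c (g * w * g⁻¹ * w⁻¹) = D.ρ g (c w) - c w := by
  rw [hc.div (hW.conj_mem w hw g) hw, hc.conj g w hw]

end IsCoc

namespace Hyp

variable {p : ℕ} [Fact p.Prime] {D : Data Γ k Z} (h : Hyp p D)
include h

theorem isCoc₁ : IsCoc D D.c₁ := ⟨h.c₁_mul, h.c₁_conj⟩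
theorem isCoc₂ : IsCoc D D.c₂ := ⟨h.c₂_mul, h.c₂_conj⟩

theorem eq_of_c_eq {w w' : Γ} (hw : w ∈ D.W) (hw' : w' ∈ D.W) (h1 : D.c₁ w = D.c₁ w')
    (h2 : D.c₂ w = D.c₂ w') : w = w' := by
  have := h.c_inj (w * w'⁻¹) (D.W.mul_mem hw (D.W.inv_mem hw'))
    (by rw [h.isCoc₁.div hw hw', h1, sub_self]) (by rw [h.isCoc₂.div hw hw', h2, sub_self])
  exact mul_inv_eq_one.mp this

/-- equality of elements of `Z` can be checked on coordinates -/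
theorem eq_of_coord {z z' : Z} (h1 : D.ℓ₁ z = D.ℓ₁ z') (h2 : D.ℓp z = D.ℓp z')
    (h3 : D.ℓm z = D.ℓm z') : z = z' := by
  have := h.coord_inj (z - z') (by rw [map_sub, h1, sub_self]) (by rw [map_sub, h2, sub_self])
    (by rw [map_sub, h3, sub_self])
  exact sub_eq_zero.mp this

theorem W_comm {w w' : Γ} (hw : w ∈ D.W) (hw' : w' ∈ D.W) : w * w' = w' * w :=
  h.eq_of_c_eq (D.W.mul_mem hw hw') (D.W.mul_mem hw' hw)
    (by rw [h.c₁_mul w hw w' hw', h.c₁_mul w' hw' w hw, add_comm])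
    (by rw [h.c₂_mul w hw w' hw', h.c₂_mul w' hw' w hw, add_comm])

theorem p_nsmul (z : Z) : p • z = 0 := by
  haveI := h.charP
  rw [← Nat.cast_smul_eq_nsmul k, CharP.cast_eq_zero, zero_smul]

theorem pow_p_eq_one {w : Γ} (hw : w ∈ D.W) : w ^ p = 1 :=
  h.c_inj _ (D.W.pow_mem hw p) (by rw [h.isCoc₁.pow hw, h.p_nsmul])
    (by rw [h.isCoc₂.pow hw, h.p_nsmul])

theorem p_prime : p.Prime := Fact.out

theorem p_ge_three : 3 ≤ p := by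
  have h2 := (h.p_prime).two_le
  have := h.p_odd
  omega

theorem p_odd' : Odd p := (h.p_prime).odd_of_ne_two h.p_odd

theorem m_pos : 0 < D.m := by
  rcases Nat.eq_zero_or_pos D.m with h0 | h0
  · have := h.m_dvd
    rw [h0, zero_dvd_iff] at this
    omega
  · exact h0

theorem m_even : 2 ∣ D.m := by
  obtain ⟨t, ht⟩ := h.m_dvd
  have hodd := h.m_odd
  rw [ht, Nat.mul_div_cancel_left _ h.m_pos] at hodd
  have hp := h.p_odd'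
  have hev : Even (D.m * t) := by
    rw [← ht]
    exact hp.add_one
  rcases Nat.even_mul.mp hev with h1 | h1
  · exact even_iff_two_dvd.mp h1
  · exact absurd h1 (Nat.not_even_iff_odd.mpr hodd)

theorem m_ge_two : 2 ≤ D.m := Nat.le_of_dvd h.m_pos h.m_even

theorem m_le : D.m ≤ p + 1 := Nat.le_of_dvd (by omega) h.m_dvd

theorem m_coprime_p : Nat.Coprime D.m p := by
  have h1 : Nat.Coprime (p + 1) p := by simp
  exact Nat.Coprime.coprime_dvd_left h.m_dvd h1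

theorem ψ₀_pow_m : D.ψ₀ ^ D.m = 1 := (h.ψ₀_pow D.m).2 dvd_rfl

theorem ψ₀_ne_zero : D.ψ₀ ≠ 0 := by
  intro h0
  have := h.ψ₀_pow_m
  rw [h0, zero_pow (by have := h.m_pos; omega)] at this
  exact zero_ne_one this

theorem ψ₀_inv_pow (j : ℕ) : D.ψ₀⁻¹ ^ j = 1 ↔ D.m ∣ j := by
  rw [inv_pow, inv_eq_one, h.ψ₀_pow]

theorem ψ₀_ne_one : D.ψ₀ ≠ 1 := by
  intro h1
  have := (h.ψ₀_pow 1).1 (by rw [pow_one, h1])
  have := Nat.le_of_dvd one_pos this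
  have := h.m_ge_two
  omega

/-! ### the action of tame inertia on coordinates -/

theorem tame_pow_ℓ₁ (j : ℕ) (z : Z) : D.ℓ₁ ((D.ρ D.τ₀ ^ j) z) = D.ℓ₁ z := by
  induction j generalizing z with
  | zero => simp
  | succ j ih => rw [pow_succ, Module.End.mul_apply, ih, h.tame_ℓ₁]

theorem tame_pow_ℓp (j : ℕ) (z : Z) : D.ℓp ((D.ρ D.τ₀ ^ j) z) = D.ψ₀ ^ j * D.ℓp z := by
  induction j generalizing z with
  | zero => simp
  | succ j ih => rw [pow_succ, Module.End.mul_apply, ih, h.tame_ℓp, pow_succ, mul_assoc]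

theorem tame_pow_ℓm (j : ℕ) (z : Z) : D.ℓm ((D.ρ D.τ₀ ^ j) z) = D.ψ₀⁻¹ ^ j * D.ℓm z := by
  induction j generalizing z with
  | zero => simp
  | succ j ih => rw [pow_succ, Module.End.mul_apply, ih, h.tame_ℓm, pow_succ, mul_assoc]

/-! ### inertia and wild inertia -/

theorem F_anti (N : Subgroup Γ) (hN : N.Normal) (hNW : N ≤ D.W) (hN1 : N ≤ D.F ⊥ 1) (n : ℕ) :
    D.F N (n + 1) ≤ D.F N n := by
  intro σ hσ
  rw [h.mem_F N hN hNW hN1] at hσ ⊢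
  rcases hσ with hσ | hσ
  · exact Or.inl hσ
  · exact Or.inr (by omega)

theorem F_anti' (N : Subgroup Γ) (hN : N.Normal) (hNW : N ≤ D.W) (hN1 : N ≤ D.F ⊥ 1) {n n' : ℕ}
    (hn : n ≤ n') : D.F N n' ≤ D.F N n := by
  intro σ hσ
  rw [h.mem_F N hN hNW hN1] at hσ ⊢
  rcases hσ with hσ | hσ
  · exact Or.inl hσ
  · exact Or.inr (by omega)

theorem le_F (N : Subgroup Γ) (hN : N.Normal) (hNW : N ≤ D.W) (hN1 : N ≤ D.F ⊥ 1) (n : ℕ) :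
    N ≤ D.F N n := by
  intro σ hσ
  rw [h.mem_F N hN hNW hN1]
  exact Or.inl hσ

theorem bot_normal : (⊥ : Subgroup Γ).Normal := Subgroup.normal_bot

theorem wild_le_inertia : D.F ⊥ 1 ≤ D.F ⊥ 0 :=
  h.F_anti ⊥ Subgroup.normal_bot bot_le bot_le 0

theorem inertia_normal : (D.F ⊥ 0).Normal := h.F_normal ⊥ Subgroup.normal_bot bot_le bot_le 0

theorem wild_normal : (D.F ⊥ 1).Normal := h.F_normal ⊥ Subgroup.normal_bot bot_le bot_le 1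

theorem wild_le_W : D.F ⊥ 1 ≤ D.W := by
  intro γ hγ
  haveI := h.W_normal
  obtain ⟨r, hr⟩ := h.wild_pgroup ⟨γ, hγ⟩
  have hr' : γ ^ (p ^ r) = 1 := by
    have := congrArg Subtype.val hr
    simpa using this
  have h1 : γ ^ D.W.index ∈ D.W := Subgroup.pow_index_mem D.W γ
  have h2 : γ ^ (p ^ r) ∈ D.W := by rw [hr']; exact D.W.one_mem
  have hcop : Nat.Coprime D.W.index (p ^ r) :=
    Nat.Coprime.pow_right r (((h.p_prime).coprime_iff_not_dvd.mpr h.W_index).symm)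
  exact mem_of_pow_mem_coprime D.W γ hcop h1 h2

theorem W_inf_inertia_le : D.W ⊓ D.F ⊥ 0 ≤ D.F ⊥ 1 := by
  intro w hw
  refine h.tame_no_p w hw.2 ?_
  rw [h.pow_p_eq_one hw.1]
  exact (D.F ⊥ 1).one_mem

theorem W_inf_inertia : D.W ⊓ D.F ⊥ 0 = D.F ⊥ 1 :=
  le_antisymm h.W_inf_inertia_le (le_inf h.wild_le_W h.wild_le_inertia)

/-- commutators of inertia elements with `W` lie in wild inertia -/
theorem comm_tame_mem {τ w : Γ} (hτ : τ ∈ D.F ⊥ 0) (hw : w ∈ D.W) :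
    τ * w * τ⁻¹ * w⁻¹ ∈ D.F ⊥ 1 := by
  apply h.W_inf_inertia_le
  refine ⟨D.W.mul_mem (h.W_normal.conj_mem w hw τ) (D.W.inv_mem hw), ?_⟩
  have h1 : w * τ⁻¹ * w⁻¹ ∈ D.F ⊥ 0 :=
    h.inertia_normal.conj_mem τ⁻¹ ((D.F ⊥ 0).inv_mem hτ) w
  have h2 : τ * w * τ⁻¹ * w⁻¹ = τ * (w * τ⁻¹ * w⁻¹) := by group
  rw [h2]
  exact (D.F ⊥ 0).mul_mem hτ h1

theorem comm_frob_mem {w : Γ} (hw : w ∈ D.W) : D.φ * w * D.φ⁻¹ * w⁻¹ ∈ D.F ⊥ 1 := by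
  apply h.W_inf_inertia_le
  exact ⟨D.W.mul_mem (h.W_normal.conj_mem w hw D.φ) (D.W.inv_mem hw), h.frob_comm w hw⟩

theorem τ₀_pow_mem (j : ℕ) : D.τ₀ ^ j ∈ D.F ⊥ 0 := (D.F ⊥ 0).pow_mem h.τ₀_mem j

/-! ### Step C1: `W ≤ Γ₀`, hence `W = Γ₁` -/

/-- the product `∏_{j < n} τ ^ j w τ ^ (-j)` -/
def avg (τ w : Γ) : ℕ → Γ
  | 0 => 1
  | n + 1 => avg τ w n * (τ ^ n * w * (τ ^ n)⁻¹)

omit h in
theorem avg_zero (τ w : Γ) : avg τ w 0 = 1 := rfl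

omit h in
theorem avg_succ (τ w : Γ) (n : ℕ) : avg τ w (n + 1) = avg τ w n * (τ ^ n * w * (τ ^ n)⁻¹) :=
  rfl

theorem avg_mem (τ : Γ) {w : Γ} (hw : w ∈ D.W) (n : ℕ) : avg τ w n ∈ D.W := by
  induction n with
  | zero => exact D.W.one_mem
  | succ n ih => exact D.W.mul_mem ih (h.W_normal.conj_mem w hw _)

theorem coc_avg {c : Γ → Z} (hc : IsCoc D c) (τ : Γ) {w : Γ} (hw : w ∈ D.W) (n : ℕ) :
    c (avg τ w n) = ∑ j ∈ Finset.range n, (D.ρ τ ^ j) (c w) := by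
  induction n with
  | zero => simp [Hyp.avg_zero, hc.one]
  | succ n ih =>
    rw [Hyp.avg_succ, hc.mul _ (h.avg_mem τ hw n) _ (h.W_normal.conj_mem w hw _), ih,
      Finset.sum_range_succ, hc.conj _ w hw, map_pow]

omit h in
/-- pure group theory: if all `[τ ^ n, w]` lie in a normal subgroup `H`, then
`avg τ w n ≡ w ^ n` modulo `H`. -/
theorem avg_mul_inv_mem_of (H : Subgroup Γ) (hH : H.Normal) (τ w : Γ)
    (hcomm : ∀ n : ℕ, τ ^ n * w * (τ ^ n)⁻¹ * w⁻¹ ∈ H) (n : ℕ) :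
    avg τ w n * (w ^ n)⁻¹ ∈ H := by
  induction n with
  | zero => simp [avg_zero, H.one_mem]
  | succ n ih =>
    have h2 : w ^ n * (τ ^ n * w * (τ ^ n)⁻¹ * w⁻¹) * (w ^ n)⁻¹ ∈ H :=
      hH.conj_mem _ (hcomm n) _
    have h3 : avg τ w (n + 1) * (w ^ (n + 1))⁻¹ =
        (avg τ w n * (w ^ n)⁻¹) * (w ^ n * (τ ^ n * w * (τ ^ n)⁻¹ * w⁻¹) * (w ^ n)⁻¹) := by
      rw [avg_succ, pow_succ]
      group
    rw [h3]
    exact H.mul_mem ih h2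

theorem avg_mul_inv_mem {w : Γ} (hw : w ∈ D.W) (n : ℕ) :
    avg D.τ₀ w n * (w ^ n)⁻¹ ∈ D.F ⊥ 1 :=
  avg_mul_inv_mem_of _ h.wild_normal _ _ (fun n => h.comm_tame_mem (h.τ₀_pow_mem n) hw) n

omit h in
theorem geom_zero {r : k} {n : ℕ} (h1 : r ^ n = 1) (h2 : r ≠ 1) :
    ∑ j ∈ Finset.range n, r ^ j = 0 := by
  have h3 := geom_sum_mul r n
  rw [h1, sub_self] at h3
  rcases mul_eq_zero.mp h3 with h4 | h4
  · exact h4
  · exact absurd (sub_eq_zero.mp h4) h2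

theorem ρ_tame_pow (j i : ℕ) : D.ρ (D.τ₀ ^ j) ^ i = D.ρ D.τ₀ ^ (j * i) := by
  rw [map_pow, ← pow_mul]

theorem coc_avg_ℓ₁ {c : Γ → Z} (hc : IsCoc D c) (j : ℕ) {w : Γ} (hw : w ∈ D.W) (n : ℕ) :
    D.ℓ₁ (c (avg (D.τ₀ ^ j) w n)) = n * D.ℓ₁ (c w) := by
  rw [h.coc_avg hc _ hw, map_sum]
  simp_rw [h.ρ_tame_pow, h.tame_pow_ℓ₁]
  simp

theorem coc_avg_ℓp {c : Γ → Z} (hc : IsCoc D c) (j : ℕ) (hj : D.ψ₀ ^ j ≠ 1) {w : Γ}
    (hw : w ∈ D.W) : D.ℓp (c (avg (D.τ₀ ^ j) w D.m)) = 0 := by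
  rw [h.coc_avg hc _ hw, map_sum]
  simp_rw [h.ρ_tame_pow, h.tame_pow_ℓp, pow_mul]
  rw [← Finset.sum_mul, geom_zero (by rw [← pow_mul, mul_comm, pow_mul, h.ψ₀_pow_m, one_pow]) hj,
    zero_mul]

theorem coc_avg_ℓm {c : Γ → Z} (hc : IsCoc D c) (j : ℕ) (hj : D.ψ₀ ^ j ≠ 1) {w : Γ}
    (hw : w ∈ D.W) : D.ℓm (c (avg (D.τ₀ ^ j) w D.m)) = 0 := by
  rw [h.coc_avg hc _ hw, map_sum]
  simp_rw [h.ρ_tame_pow, h.tame_pow_ℓm, pow_mul]
  have hj' : D.ψ₀⁻¹ ^ j ≠ 1 := by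
    rw [inv_pow]
    exact fun h' => hj (inv_eq_one.mp h')
  rw [← Finset.sum_mul, geom_zero (by
    rw [← pow_mul, mul_comm, pow_mul, (h.ψ₀_inv_pow D.m).2 dvd_rfl, one_pow]) hj', zero_mul]

/-- coordinates of commutators with tame inertia -/
theorem coc_comm_ℓ₁ {c : Γ → Z} (hc : IsCoc D c) (j : ℕ) {w : Γ} (hw : w ∈ D.W) :
    D.ℓ₁ (c (D.τ₀ ^ j * w * (D.τ₀ ^ j)⁻¹ * w⁻¹)) = 0 := by
  rw [hc.comm h.W_normal _ hw, map_sub, map_pow, h.tame_pow_ℓ₁, sub_self]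

theorem coc_comm_ℓp {c : Γ → Z} (hc : IsCoc D c) (j : ℕ) {w : Γ} (hw : w ∈ D.W) :
    D.ℓp (c (D.τ₀ ^ j * w * (D.τ₀ ^ j)⁻¹ * w⁻¹)) = (D.ψ₀ ^ j - 1) * D.ℓp (c w) := by
  rw [hc.comm h.W_normal _ hw, map_sub, map_pow, h.tame_pow_ℓp]
  ring

theorem coc_comm_ℓm {c : Γ → Z} (hc : IsCoc D c) (j : ℕ) {w : Γ} (hw : w ∈ D.W) :
    D.ℓm (c (D.τ₀ ^ j * w * (D.τ₀ ^ j)⁻¹ * w⁻¹)) = (D.ψ₀⁻¹ ^ j - 1) * D.ℓm (c w) := by
  rw [hc.comm h.W_normal _ hw, map_sub, map_pow, h.tame_pow_ℓm]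
  ring

/-- for `w'` in `W` with vanishing `ψ`-coordinates, `[φ, w'] = w' ^ (-2)` -/
theorem coc_frob_comm_eq {c : Γ → Z} (hc : IsCoc D c) {w : Γ} (hw : w ∈ D.W)
    (h1 : D.ℓp (c w) = 0) (h2 : D.ℓm (c w) = 0) :
    c (D.φ * w * D.φ⁻¹ * w⁻¹) = c (w ^ 2)⁻¹ := by
  rw [hc.comm h.W_normal _ hw, hc.inv (D.W.pow_mem hw 2), hc.pow hw]
  apply h.eq_of_coord
  · rw [map_sub, h.frob_ℓ₁, map_neg, map_nsmul]
    simp only [nsmul_eq_mul]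
    ring
  · rw [map_sub, h.frob_ℓp, map_neg, map_nsmul, h1, h2]
    simp
  · rw [map_sub, h.frob_ℓm, map_neg, map_nsmul, h1, h2]
    simp

/-- **C1**: `W` is contained in wild inertia. -/
theorem W_le_wild : D.W ≤ D.F ⊥ 1 := by
  intro w hw
  have hψ1 : D.ψ₀ ^ 1 ≠ 1 := by rw [pow_one]; exact h.ψ₀_ne_one
  set w' := avg D.τ₀ w D.m with hw'def
  have hw'eq : w' = avg (D.τ₀ ^ 1) w D.m := by rw [pow_one]
  have hw' : w' ∈ D.W := h.avg_mem _ hw _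
  -- `[φ, w'] = w' ^ (-2)`
  have e1 : D.φ * w' * D.φ⁻¹ * w'⁻¹ = (w' ^ 2)⁻¹ :=
    h.eq_of_c_eq (D.W.mul_mem (h.W_normal.conj_mem w' hw' _) (D.W.inv_mem hw'))
      (D.W.inv_mem (D.W.pow_mem hw' 2))
      (h.coc_frob_comm_eq h.isCoc₁ hw' (by rw [hw'eq]; exact h.coc_avg_ℓp h.isCoc₁ 1 hψ1 hw)
        (by rw [hw'eq]; exact h.coc_avg_ℓm h.isCoc₁ 1 hψ1 hw))
      (h.coc_frob_comm_eq h.isCoc₂ hw' (by rw [hw'eq]; exact h.coc_avg_ℓp h.isCoc₂ 1 hψ1 hw)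
        (by rw [hw'eq]; exact h.coc_avg_ℓm h.isCoc₂ 1 hψ1 hw))
  have e2 : w' ^ 2 ∈ D.F ⊥ 1 := by
    have := h.comm_frob_mem hw'
    rw [e1] at this
    exact (Subgroup.inv_mem_iff _).mp this
  have e3 : w' ^ p ∈ D.F ⊥ 1 := by
    rw [h.pow_p_eq_one hw']
    exact (D.F ⊥ 1).one_mem
  have e4 : w' ∈ D.F ⊥ 1 :=
    mem_of_pow_mem_coprime _ w' ((Nat.coprime_primes Nat.prime_two h.p_prime).mpr
      (Ne.symm h.p_odd)) e2 e3
  have e5 : w ^ D.m ∈ D.F ⊥ 1 := by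
    have := h.avg_mul_inv_mem hw D.m
    have h6 : w ^ D.m = (avg D.τ₀ w D.m * (w ^ D.m)⁻¹)⁻¹ * w' := by
      rw [hw'def]; group
    rw [h6]
    exact (D.F ⊥ 1).mul_mem ((D.F ⊥ 1).inv_mem this) e4
  have e6 : w ^ p ∈ D.F ⊥ 1 := by
    rw [h.pow_p_eq_one hw]
    exact (D.F ⊥ 1).one_mem
  exact mem_of_pow_mem_coprime _ w h.m_coprime_p e5 e6

theorem W_eq_wild : D.W = D.F ⊥ 1 := le_antisymm h.W_le_wild h.wild_le_W

theorem W_le_inertia : D.W ≤ D.F ⊥ 0 := h.W_le_wild.trans h.wild_le_inertia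

theorem card_inertia' : Nat.card (D.F ⊥ 0) = (p - 1) * D.m * Nat.card D.W := by
  have := h.card_inertia
  rwa [inf_eq_left.mpr h.W_le_inertia] at this

end Hyp

end Fermat.Agent.S56.H846.FLCnt
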