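import Fermat.Agent.S56.H846.FLCnt.Basic
import Fermat.Agent.S56.H846.FLCnt.Arith

/-!
# FL-CNT, step C2: an irreducible quotient of `W` has its unique break at `p - 1`
(helper846)  Mathlib only, nothing unproved.
-/

set_option autoImplicit false
set_option linter.unusedSectionVars false
set_option linter.style.haveILetI false
set_option linter.unusedVariables false

namespace Fermat.Agent.S56.H846.FLCnt

variable {Γ k Z : Type} [Group Γ] [Field k] [AddCommGroup Z] [Module k Z]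

/-- `N` is a maximal proper `Γ`-normal subgroup of `W` -/
structure IsMaxNormal (D : Data Γ k Z) (N : Subgroup Γ) : Prop where
  normal : N.Normal
  le : N ≤ D.W
  ne : N ≠ D.W
  max : ∀ N' : Subgroup Γ, N'.Normal → N ≤ N' → N' ≤ D.W → N' = N ∨ N' = D.W

/-- `u` is the break of the quotient `W / N` -/
structure IsBreak (D : Data Γ k Z) (N : Subgroup Γ) (u : ℕ) : Prop where
  pos : 1 ≤ u
  le : D.W ≤ D.F N u
  inf : D.F N (u + 1) ⊓ D.W = N

namespace Hyp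

variable {p : ℕ} [Fact p.Prime] {D : Data Γ k Z} (h : Hyp p D)
include h

theorem max_exists_not_mem {N : Subgroup Γ} (M : IsMaxNormal D N) :
    ∃ σ ∈ D.W, σ ∉ N := by
  by_contra hcon
  push Not at hcon
  exact M.ne (le_antisymm M.le hcon)

theorem max_le_wild {N : Subgroup Γ} (M : IsMaxNormal D N) : N ≤ D.F ⊥ 1 :=
  M.le.trans h.W_le_wild

theorem exists_break [Finite Γ] {N : Subgroup Γ} (M : IsMaxNormal D N) :
    ∃ u, IsBreak D N u := by
  classical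
  have hN1 := h.max_le_wild M
  -- the filtration is eventually `N`
  have hB : ∃ B, D.F N B ≤ N := by
    haveI : Fintype Γ := Fintype.ofFinite Γ
    refine ⟨∑ σ : Γ, D.i N σ, fun σ hσ => ?_⟩
    rw [h.mem_F N M.normal M.le hN1] at hσ
    rcases hσ with hσ | hσ
    · exact hσ
    · exfalso
      have : D.i N σ ≤ ∑ σ : Γ, D.i N σ :=
        Finset.single_le_sum (f := fun σ => D.i N σ) (fun _ _ => Nat.zero_le _)
          (Finset.mem_univ σ)
      omega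
  have hex : ∃ n, ¬ D.W ≤ D.F N n := by
    obtain ⟨B, hB⟩ := hB
    exact ⟨B, fun hW => M.ne (le_antisymm M.le (hW.trans hB))⟩
  have h1 : D.W ≤ D.F N 1 := by
    rw [h.W_eq_wild]
    exact h.F_one N M.normal M.le hN1
  have h0 : D.W ≤ D.F N 0 := h1.trans (h.F_anti N M.normal M.le hN1 0)
  set n₀ := Nat.find hex with hn₀
  have hn₀1 : ¬ D.W ≤ D.F N n₀ := Nat.find_spec hex
  have hn₀2 : 2 ≤ n₀ := by
    by_contra hlt
    have : n₀ = 0 ∨ n₀ = 1 := by omega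
    rcases this with h' | h'
    · rw [h'] at hn₀1; exact hn₀1 h0
    · rw [h'] at hn₀1; exact hn₀1 h1
  have hu : D.W ≤ D.F N (n₀ - 1) := by
    by_contra hcon
    have := Nat.find_min' hex hcon
    omega
  refine ⟨n₀ - 1, by omega, hu, ?_⟩
  have hn : n₀ - 1 + 1 = n₀ := by omega
  rw [hn]
  haveI := h.F_normal N M.normal M.le hN1 n₀
  haveI := h.W_normal
  have hnorm : (D.F N n₀ ⊓ D.W).Normal := inferInstance
  rcases M.max _ hnorm (le_inf (h.le_F N M.normal M.le hN1 n₀) M.le) inf_le_right with h' | h'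
  · exact h'
  · exfalso
    exact hn₀1 (by rw [← h']; exact inf_le_left)

theorem break_not_mem {N : Subgroup Γ} {u : ℕ} (hu : IsBreak D N u) {σ : Γ} (hσ : σ ∈ D.W)
    (hσN : σ ∉ N) : σ ∉ D.F N (u + 1) := fun h' => hσN (by rw [← hu.inf]; exact ⟨h', hσ⟩)

theorem i_eq_of_break {N : Subgroup Γ} (M : IsMaxNormal D N) {u : ℕ} (hu : IsBreak D N u)
    {σ : Γ} (hσ : σ ∈ D.W) (hσN : σ ∉ N) : D.i N σ = u + 1 := by
  have hN1 := h.max_le_wild M
  have h1 := hu.le hσ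
  have h2 := h.break_not_mem hu hσ hσN
  rw [h.mem_F N M.normal M.le hN1] at h1 h2
  push Not at h2
  rcases h1 with h1 | h1
  · exact absurd h1 hσN
  · omega

/-- the commutator rule in the quotient `W / N` -/
theorem comm_rule_max {N : Subgroup Γ} (M : IsMaxNormal D N) {u : ℕ} (hu : IsBreak D N u)
    {σ : Γ} (hσ : σ ∈ D.W) (hσN : σ ∉ N) (j : ℕ) :
    D.τ₀ ^ j * σ * (D.τ₀ ^ j)⁻¹ * σ⁻¹ ∈ N ↔ (p - 1) * D.m ∣ j * u := by
  have hN1 := h.max_le_wild M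
  have hrule := h.comm_rule N M.normal M.le hN1 u hu.pos σ (hu.le hσ)
    (h.break_not_mem hu hσ hσN) (D.τ₀ ^ j) (h.τ₀_pow_mem j)
  have hW : D.τ₀ ^ j * σ * (D.τ₀ ^ j)⁻¹ * σ⁻¹ ∈ D.W :=
    D.W.mul_mem (h.W_normal.conj_mem σ hσ _) (D.W.inv_mem hσ)
  have e1 : D.τ₀ ^ j * σ * (D.τ₀ ^ j)⁻¹ * σ⁻¹ ∈ N ↔
      D.τ₀ ^ j * σ * (D.τ₀ ^ j)⁻¹ * σ⁻¹ ∈ D.F N (u + 1) :=
    ⟨fun h' => h.le_F N M.normal M.le hN1 _ h', fun h' => by rw [← hu.inf]; exact ⟨h', hW⟩⟩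
  have e2 : (D.τ₀ ^ j) ^ u ∈ D.F N 1 ↔ D.τ₀ ^ (j * u) ∈ D.W := by
    rw [← pow_mul, h.W_eq_wild]
    exact ⟨fun h' => h.F_one' N M.normal M.le hN1 ⟨h', h.τ₀_pow_mem _⟩,
      fun h' => h.F_one N M.normal M.le hN1 h'⟩
  rw [e1, hrule, e2, h.τ₀_pow]

/-- conjugates and commutators with elements of `N` stay in `N` -/
theorem comm_mem_of_mem {N : Subgroup Γ} (hN : N.Normal) {σ : Γ} (hσ : σ ∈ N) (g : Γ) :
    g * σ * g⁻¹ * σ⁻¹ ∈ N := N.mul_mem (hN.conj_mem σ hσ g) (N.inv_mem hσ)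

/-- If `m ∣ j` then `τ₀ ^ j` commutes with `W`. -/
theorem comm_eq_one_of_dvd {j : ℕ} (hj : D.m ∣ j) {σ : Γ} (hσ : σ ∈ D.W) :
    D.τ₀ ^ j * σ * (D.τ₀ ^ j)⁻¹ * σ⁻¹ = 1 := by
  have h1 : D.ψ₀ ^ j = 1 := (h.ψ₀_pow j).2 hj
  have h2 : D.ψ₀⁻¹ ^ j = 1 := (h.ψ₀_inv_pow j).2 hj
  refine h.c_inj _ (D.W.mul_mem (h.W_normal.conj_mem σ hσ _) (D.W.inv_mem hσ)) ?_ ?_
  · apply h.eq_of_coord
    · rw [h.coc_comm_ℓ₁ h.isCoc₁ j hσ, map_zero]
    · rw [h.coc_comm_ℓp h.isCoc₁ j hσ, h1, sub_self, zero_mul, map_zero]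
    · rw [h.coc_comm_ℓm h.isCoc₁ j hσ, h2, sub_self, zero_mul, map_zero]
  · apply h.eq_of_coord
    · rw [h.coc_comm_ℓ₁ h.isCoc₂ j hσ, map_zero]
    · rw [h.coc_comm_ℓp h.isCoc₂ j hσ, h1, sub_self, zero_mul, map_zero]
    · rw [h.coc_comm_ℓm h.isCoc₂ j hσ, h2, sub_self, zero_mul, map_zero]

/-- Claim B: `e₀ ∣ j u ↔ m ∣ j`, provided `e₀ ∤ u`. -/
theorem claim_B {N : Subgroup Γ} (M : IsMaxNormal D N) {u : ℕ} (hu : IsBreak D N u)
    (hA : ¬ (p - 1) * D.m ∣ u) (j : ℕ) : (p - 1) * D.m ∣ j * u ↔ D.m ∣ j := by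
  obtain ⟨σ₀, hσ₀, hσ₀N⟩ := h.max_exists_not_mem M
  constructor
  · intro hdvd
    by_contra hmj
    have hψ : D.ψ₀ ^ j ≠ 1 := fun h' => hmj ((h.ψ₀_pow j).1 h')
    -- `σ' = [τ₀, σ₀]` is not in `N`
    set σ' := D.τ₀ ^ 1 * σ₀ * (D.τ₀ ^ 1)⁻¹ * σ₀⁻¹ with hσ'
    have hσ'W : σ' ∈ D.W := D.W.mul_mem (h.W_normal.conj_mem σ₀ hσ₀ _) (D.W.inv_mem hσ₀)
    have hσ'N : σ' ∉ N := by
      intro h'
      have := (h.comm_rule_max M hu hσ₀ hσ₀N 1).1 h'
      rw [one_mul] at this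
      exact hA this
    -- all `[τ₀ ^ (j i), σ']` lie in `N`
    have hcomm : ∀ n : ℕ, (D.τ₀ ^ j) ^ n * σ' * ((D.τ₀ ^ j) ^ n)⁻¹ * σ'⁻¹ ∈ N := by
      intro n
      rw [← pow_mul]
      refine (h.comm_rule_max M hu hσ'W hσ'N (j * n)).2 ?_
      rw [mul_assoc, mul_comm n u, ← mul_assoc]
      exact Dvd.dvd.mul_right hdvd n
    have h1 := avg_mul_inv_mem_of N M.normal (D.τ₀ ^ j) σ' hcomm D.m
    -- the average is trivial
    have h2 : avg (D.τ₀ ^ j) σ' D.m = 1 := by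
      refine h.c_inj _ (h.avg_mem _ hσ'W _) ?_ ?_
      · apply h.eq_of_coord
        · rw [h.coc_avg_ℓ₁ h.isCoc₁ j hσ'W, h.coc_comm_ℓ₁ h.isCoc₁ 1 hσ₀, mul_zero, map_zero]
        · rw [h.coc_avg_ℓp h.isCoc₁ j hψ hσ'W, map_zero]
        · rw [h.coc_avg_ℓm h.isCoc₁ j hψ hσ'W, map_zero]
      · apply h.eq_of_coord
        · rw [h.coc_avg_ℓ₁ h.isCoc₂ j hσ'W, h.coc_comm_ℓ₁ h.isCoc₂ 1 hσ₀, mul_zero, map_zero]
        · rw [h.coc_avg_ℓp h.isCoc₂ j hψ hσ'W, map_zero]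
        · rw [h.coc_avg_ℓm h.isCoc₂ j hψ hσ'W, map_zero]
    rw [h2, one_mul] at h1
    have h3 : σ' ^ D.m ∈ N := (Subgroup.inv_mem_iff _).mp h1
    have h4 : σ' ^ p ∈ N := by
      rw [h.pow_p_eq_one hσ'W]
      exact N.one_mem
    exact hσ'N (mem_of_pow_mem_coprime N σ' h.m_coprime_p h3 h4)
  · intro hmj
    refine (h.comm_rule_max M hu hσ₀ hσ₀N j).1 ?_
    rw [h.comm_eq_one_of_dvd hmj hσ₀]
    exact N.one_mem

/-! ### cardinalities -/

omit h in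
theorem card_eq_filter [Fintype Γ] [DecidableEq Γ] (H : Subgroup Γ) [DecidablePred (· ∈ H)] :
    Nat.card H = (Finset.univ.filter (· ∈ H)).card := by
  rw [Nat.card_eq_fintype_card, Fintype.card_subtype]

omit h in
theorem finsum_mem_eq_sum [Fintype Γ] (P : Γ → Prop) [DecidablePred P] (f : Γ → ℕ) :
    ∑ᶠ (σ : Γ) (_ : P σ), f σ = ∑ σ ∈ Finset.univ.filter P, f σ := by
  rw [finsum_eq_sum_of_fintype, Finset.sum_filter]
  refine Finset.sum_congr rfl (fun σ _ => ?_)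
  by_cases h1 : P σ <;> simp [h1]

omit h in
theorem finsum_mem_mem_eq_sum [Fintype Γ] (P Q : Γ → Prop) [DecidablePred P] [DecidablePred Q]
    (f : Γ → ℕ) :
    ∑ᶠ (σ : Γ) (_ : P σ) (_ : Q σ), f σ = ∑ σ ∈ Finset.univ.filter (fun σ => P σ ∧ Q σ), f σ := by
  rw [finsum_eq_sum_of_fintype, Finset.sum_filter]
  refine Finset.sum_congr rfl (fun σ _ => ?_)
  by_cases h1 : P σ <;> by_cases h2 : Q σ <;> simp [h1, h2]

omit h in
/-- reindexing a double sum over cosets -/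
theorem sum_sum_mul [Fintype Γ] [DecidableEq Γ] (G₀ N : Subgroup Γ) [DecidablePred (· ∈ G₀)]
    [DecidablePred (· ∈ N)] (hN : N ≤ G₀) (f : Γ → ℕ) :
    ∑ σ ∈ Finset.univ.filter (fun σ => σ ∈ G₀ ∧ σ ∉ N),
      ∑ w ∈ Finset.univ.filter (· ∈ N), f (σ * w) =
    Nat.card N * ∑ σ ∈ Finset.univ.filter (fun σ => σ ∈ G₀ ∧ σ ∉ N), f σ := by
  rw [Finset.sum_comm]
  have : ∀ w ∈ Finset.univ.filter (· ∈ N),
      ∑ σ ∈ Finset.univ.filter (fun σ => σ ∈ G₀ ∧ σ ∉ N), f (σ * w) =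
      ∑ σ ∈ Finset.univ.filter (fun σ => σ ∈ G₀ ∧ σ ∉ N), f σ := by
    intro w hw
    have hwN : w ∈ N := (Finset.mem_filter.mp hw).2
    refine Finset.sum_equiv (Equiv.mulRight w) (fun σ => ?_) (fun σ _ => by simp)
    simp only [Finset.mem_filter, Finset.mem_univ, true_and, Equiv.coe_mulRight]
    rw [Subgroup.mul_mem_cancel_right _ (hN hwN), Subgroup.mul_mem_cancel_right _ hwN]
  rw [Finset.sum_congr rfl this, Finset.sum_const, smul_eq_mul, card_eq_filter]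

/-- The numerical bound for the break of an irreducible quotient. -/
theorem break_bound [Finite Γ] {N : Subgroup Γ} (M : IsMaxNormal D N) {u : ℕ}
    (hu : IsBreak D N u) {y : ℕ} (hy : Nat.card D.W = Nat.card N * (y + 1)) :
    y * (u + 1) ≤ (D.m + 1) * (y + 1) := by
  classical
  haveI : Fintype Γ := Fintype.ofFinite Γ
  have hN1 := h.max_le_wild M
  have hNΓ₀ : N ≤ D.F ⊥ 0 := hN1.trans h.wild_le_inertia
  have hW1 : D.F ⊥ 1 ≠ ⊥ := by
    rw [← h.W_eq_wild]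
    intro hbot
    obtain ⟨σ, hσ, hσN⟩ := h.max_exists_not_mem M
    rw [hbot, Subgroup.mem_bot] at hσ
    exact hσN (hσ ▸ N.one_mem)
  -- the sets
  set A := Finset.univ.filter (fun σ : Γ => σ ∈ D.F ⊥ 0 ∧ σ ∉ N) with hA
  set S₀ := Finset.univ.filter (fun σ : Γ => σ ∈ D.F ⊥ 0 ∧ σ ≠ 1) with hS₀
  -- the different bound
  have hD := h.D_bound hW1
  rw [finsum_mem_mem_eq_sum] at hD
  -- quotient formula summed
  have e1 : ∑ σ ∈ A, Nat.card N * D.i N σ = Nat.card N * ∑ σ ∈ A, D.i ⊥ σ := by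
    rw [← sum_sum_mul (D.F ⊥ 0) N hNΓ₀ (D.i ⊥)]
    refine Finset.sum_congr rfl (fun σ hσ => ?_)
    have hσN : σ ∉ N := (Finset.mem_filter.mp hσ).2.2
    rw [← h.quot_formula N M.normal M.le hN1 σ hσN, finsum_mem_eq_sum]
  have hNpos : 0 < Nat.card N := Nat.card_pos
  have e2 : ∑ σ ∈ A, D.i N σ = ∑ σ ∈ A, D.i ⊥ σ := by
    rw [← Finset.mul_sum] at e1
    exact Nat.eq_of_mul_eq_mul_left hNpos e1
  have e3 : ∑ σ ∈ A, D.i ⊥ σ ≤ ∑ σ ∈ S₀, D.i ⊥ σ := by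
    refine Finset.sum_le_sum_of_subset (fun σ hσ => ?_)
    rw [hA, Finset.mem_filter] at hσ
    rw [hS₀, Finset.mem_filter]
    exact ⟨hσ.1, hσ.2.1, fun h1 => hσ.2.2 (h1 ▸ N.one_mem)⟩
  -- lower bound
  have e4 : ∑ σ ∈ A, (if σ ∈ D.W then u + 1 else 1) ≤ ∑ σ ∈ A, D.i N σ := by
    refine Finset.sum_le_sum (fun σ hσ => ?_)
    rw [hA, Finset.mem_filter] at hσ
    by_cases hσW : σ ∈ D.W
    · rw [if_pos hσW, h.i_eq_of_break M hu hσW hσ.2.2]
    · rw [if_neg hσW]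
      have := h.F_zero N M.normal M.le hN1 hσ.2.1
      rw [h.mem_F N M.normal M.le hN1] at this
      rcases this with h' | h'
      · exact absurd h' hσ.2.2
      · omega
  have e5 : ∑ σ ∈ A, (if σ ∈ D.W then u + 1 else 1) =
      (A.filter (· ∈ D.W)).card * (u + 1) + (A.filter (· ∉ D.W)).card := by
    rw [Finset.sum_ite, Finset.sum_const, Finset.sum_const, smul_eq_mul, smul_eq_mul, mul_one]
  -- cardinalities
  have c1 : (A.filter (· ∈ D.W)).card + Nat.card N = Nat.card D.W := by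
    rw [card_eq_filter N, card_eq_filter D.W,
      ← Finset.card_filter_add_card_filter_not (s := Finset.univ.filter (· ∈ D.W)) (· ∈ N),
      add_comm]
    congr 1
    · congr 1
      ext σ
      simp only [Finset.mem_filter, Finset.mem_univ, true_and]
      exact ⟨fun h1 => ⟨M.le h1, h1⟩, fun h1 => h1.2⟩
    · congr 1
      ext σ
      simp only [hA, Finset.mem_filter, Finset.mem_univ, true_and]
      exact ⟨fun h1 => ⟨h1.2, h1.1.2⟩, fun h1 => ⟨⟨h.W_le_inertia h1.1, h1.2⟩, h1.1⟩⟩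
  have c2 : (A.filter (· ∉ D.W)).card + Nat.card D.W = Nat.card (D.F ⊥ 0) := by
    rw [card_eq_filter D.W, card_eq_filter (D.F ⊥ 0),
      ← Finset.card_filter_add_card_filter_not (s := Finset.univ.filter (· ∈ D.F ⊥ 0)) (· ∈ D.W),
      add_comm]
    congr 1
    · congr 1
      ext σ
      simp only [Finset.mem_filter, Finset.mem_univ, true_and]
      exact ⟨fun h1 => ⟨h.W_le_inertia h1, h1⟩, fun h1 => h1.2⟩
    · congr 1
      ext σ
      simp only [hA, Finset.mem_filter, Finset.mem_univ, true_and]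
      exact ⟨fun h1 => ⟨h1.1.1, h1.2⟩, fun h1 => ⟨⟨h1.1, fun h2 => h1.2 (M.le h2)⟩, h1.2⟩⟩
  have c3 := h.card_inertia'
  -- arithmetic
  set a := Nat.card N with ha
  set b := Nat.card D.W with hb
  set g := Nat.card (D.F ⊥ 0) with hg
  set cW := (A.filter (· ∈ D.W)).card with hcW
  set cG := (A.filter (· ∉ D.W)).card with hcG
  set S := ∑ σ ∈ S₀, D.i ⊥ σ with hS
  have hp1 : 1 ≤ p := (h.p_prime).one_le
  obtain ⟨P, hP⟩ : ∃ P, p = P + 1 := ⟨p - 1, by omega⟩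
  have hPpos : 0 < P := by have := h.p_ge_three; omega
  rw [hP] at hD c3
  simp only [Nat.add_sub_cancel] at hD c3
  have e6 : cW * (u + 1) + cG ≤ S := by
    rw [← e5]
    exact e4.trans (e2 ▸ e3)
  have hcW' : cW = a * y := by
    have : cW + a = a * y + a := by rw [c1, hy]; ring
    omega
  have e7 : P * (cW * (u + 1) + cG) ≤ (P + 1) * g := (Nat.mul_le_mul le_rfl e6).trans hD
  have e8 : P * a * (y * (u + 1)) ≤ P * a * ((D.m + 1) * (y + 1)) := by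
    have hg' : g = cG + b := c2.symm
    have hb' : b = a * (y + 1) := hy
    have h1 : P * (a * y * (u + 1)) + P * cG ≤ P * cG + P * b + P * D.m * b := by
      calc P * (a * y * (u + 1)) + P * cG = P * (cW * (u + 1) + cG) := by rw [hcW']; ring
        _ ≤ (P + 1) * g := e7
        _ = P * g + g := by ring
        _ = P * (cG + b) + P * D.m * b := by rw [← hg', ← c3]
        _ = P * cG + P * b + P * D.m * b := by ring
    have h2 : P * (a * y * (u + 1)) ≤ P * b + P * D.m * b := by omega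
    calc P * a * (y * (u + 1)) = P * (a * y * (u + 1)) := by ring
      _ ≤ P * b + P * D.m * b := h2
      _ = P * a * ((D.m + 1) * (y + 1)) := by rw [hb']; ring
  exact Nat.le_of_mul_le_mul_left e8 (Nat.mul_pos hPpos hNpos)

/-! ### the index of `N` in `W` -/

theorem W_isPGroup : IsPGroup p D.W := fun w =>
  ⟨1, by rw [pow_one]; exact Subtype.ext (by simpa using h.pow_p_eq_one w.2)⟩

theorem exists_card_quot [Finite Γ] {N : Subgroup Γ} (M : IsMaxNormal D N) :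
    ∃ y d, 1 ≤ d ∧ y + 1 = p ^ d ∧ Nat.card D.W = Nat.card N * (y + 1) := by
  obtain ⟨β, hβ⟩ := IsPGroup.iff_card.mp h.W_isPGroup
  obtain ⟨α, hα⟩ := IsPGroup.iff_card.mp (h.W_isPGroup.to_le M.le)
  have hp1 : 1 < p := (h.p_prime).one_lt
  have hlt : α < β := by
    by_contra hcon
    have h1 : Nat.card D.W ≤ Nat.card N := by
      rw [hα, hβ]
      exact Nat.pow_le_pow_right (by omega) (by omega)
    exact M.ne (Subgroup.eq_of_le_of_card_ge M.le h1)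
  have hpos : 0 < p ^ (β - α) := Nat.pos_of_ne_zero (by positivity)
  refine ⟨p ^ (β - α) - 1, β - α, by omega, by omega, ?_⟩
  have : p ^ (β - α) - 1 + 1 = p ^ (β - α) := by omega
  rw [this, hα, hβ, ← pow_add]
  congr 1
  omega

/-- Claim C: if `N` has index `p` in `W`, then `τ₀ ^ (p - 1)` acts trivially on `W / N`. -/
theorem claim_C [Finite Γ] {N : Subgroup Γ} (M : IsMaxNormal D N)
    (hcard : Nat.card D.W = Nat.card N * p) {σ : Γ} (hσ : σ ∈ D.W) :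
    D.τ₀ ^ (p - 1) * σ * (D.τ₀ ^ (p - 1))⁻¹ * σ⁻¹ ∈ N := by
  classical
  haveI := M.normal
  obtain ⟨σ₀, hσ₀, hσ₀N⟩ := h.max_exists_not_mem M
  -- Step 1: `W` is generated by `σ₀` modulo `N`
  have step1 : ∀ w ∈ D.W, ∃ i : ℕ, (σ₀ ^ i)⁻¹ * w ∈ N := by
    intro w hw
    haveI : (N.subgroupOf D.W).Normal := inferInstance
    have hQ : Nat.card (↥D.W ⧸ N.subgroupOf D.W) = p := by
      have h1 := Subgroup.card_eq_card_quotient_mul_card_subgroup (N.subgroupOf D.W)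
      have h2 : Nat.card (N.subgroupOf D.W) = Nat.card N :=
        Nat.card_congr (Subgroup.subgroupOfEquivOfLe M.le).toEquiv
      rw [h2, hcard, mul_comm] at h1
      have hNpos : 0 < Nat.card N := Nat.card_pos
      exact (Nat.eq_of_mul_eq_mul_right hNpos h1).symm
    have hq₀ : (QuotientGroup.mk ⟨σ₀, hσ₀⟩ : ↥D.W ⧸ N.subgroupOf D.W) ≠ 1 := by
      rw [Ne, QuotientGroup.eq_one_iff]
      simpa [Subgroup.mem_subgroupOf] using hσ₀N
    have htop := zpowers_eq_top_of_prime_card hQ hq₀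
    have hmem : (QuotientGroup.mk ⟨w, hw⟩ : ↥D.W ⧸ N.subgroupOf D.W) ∈
        Subgroup.zpowers (QuotientGroup.mk ⟨σ₀, hσ₀⟩ : ↥D.W ⧸ N.subgroupOf D.W) := by
      rw [htop]; trivial
    rw [← mem_powers_iff_mem_zpowers] at hmem
    obtain ⟨i, hi⟩ := hmem
    refine ⟨i, ?_⟩
    have h3 : ((⟨σ₀, hσ₀⟩ : D.W) ^ i)⁻¹ * ⟨w, hw⟩ ∈ N.subgroupOf D.W := by
      rw [← QuotientGroup.eq, QuotientGroup.mk_pow]
      exact hi
    simpa [Subgroup.mem_subgroupOf] using h3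
  -- work in `Γ ⧸ N`
  have hπ : ∀ x : Γ, (QuotientGroup.mk' N x = 1) ↔ x ∈ N := fun x => by
    rw [QuotientGroup.mk'_apply, QuotientGroup.eq_one_iff]
  set π := QuotientGroup.mk' N with hπdef
  set t := π D.τ₀ with ht
  set s := π σ₀ with hs
  have hs_ne : s ≠ 1 := fun h' => hσ₀N ((hπ σ₀).1 h')
  have hsp : s ^ p = 1 := by rw [hs, ← map_pow, h.pow_p_eq_one hσ₀, map_one]
  have hpow : ∀ w ∈ D.W, ∃ i : ℕ, π w = s ^ i := by
    intro w hw
    obtain ⟨i, hi⟩ := step1 w hw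
    refine ⟨i, ?_⟩
    have h1 : π ((σ₀ ^ i)⁻¹ * w) = 1 := (hπ _).2 hi
    rw [map_mul, map_inv, map_pow, inv_mul_eq_one] at h1
    exact h1.symm
  obtain ⟨a, ha⟩ := hpow (D.τ₀ * σ₀ * D.τ₀⁻¹) (h.W_normal.conj_mem σ₀ hσ₀ _)
  have ha' : t * s * t⁻¹ = s ^ a := by
    rw [← ha, map_mul, map_mul, map_inv]
  have hind : ∀ j : ℕ, t ^ j * s * (t ^ j)⁻¹ = s ^ (a ^ j) := by
    intro j
    induction j with
    | zero => simp
    | succ j ih =>
      have h1 : t ^ (j + 1) * s * (t ^ (j + 1))⁻¹ = t * (t ^ j * s * (t ^ j)⁻¹) * t⁻¹ := by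
        rw [pow_succ']; group
      rw [h1, ih, ← conj_pow, ha', ← pow_mul, ← pow_succ']
  have hpa : ¬ p ∣ a := by
    rintro ⟨b, rfl⟩
    rw [pow_mul, hsp, one_pow] at ha'
    apply hs_ne
    have h1 : s = t⁻¹ * (t * s * t⁻¹) * t := by group
    rw [h1, ha']
    group
  have hfermat : a ^ (p - 1) ≡ 1 [MOD p] := by
    rw [← ZMod.natCast_eq_natCast_iff]
    push_cast
    exact ZMod.pow_card_sub_one_eq_one (fun h0 => hpa ((ZMod.natCast_eq_zero_iff a p).1 h0))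
  have hord : orderOf s = p := orderOf_eq_prime hsp hs_ne
  have hs_pow : s ^ (a ^ (p - 1)) = s := by
    have h1 := (pow_eq_pow_iff_modEq (x := s) (n := a ^ (p - 1)) (m := 1)).2
      (by rw [hord]; exact hfermat)
    rwa [pow_one] at h1
  have hts : t ^ (p - 1) * s * (t ^ (p - 1))⁻¹ = s := by rw [hind, hs_pow]
  obtain ⟨i, hi⟩ := hpow σ hσ
  refine (hπ _).1 ?_
  rw [map_mul, map_mul, map_mul, map_inv, map_inv, map_pow, hi, ← conj_pow, hts, mul_inv_cancel]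

/-- **C2**: the break of an irreducible quotient of `W` is `p - 1`; moreover `m ≠ 2`. -/
theorem break_eq [Finite Γ] {N : Subgroup Γ} (M : IsMaxNormal D N) {u : ℕ}
    (hu : IsBreak D N u) : u = p - 1 ∧ D.m ≠ 2 := by
  obtain ⟨y, d, hd1, hyd, hy⟩ := h.exists_card_quot M
  have hb := h.break_bound M hu hy
  have hp3 := h.p_ge_three
  have hy2 : 2 ≤ y := by
    have : p ^ 1 ≤ p ^ d := Nat.pow_le_pow_right (by omega) hd1
    rw [pow_one] at this
    omega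
  have hA : ¬ (p - 1) * D.m ∣ u := arith_A hp3 h.m_ge_two hy2 hu.pos hb
  obtain ⟨σ₀, hσ₀, hσ₀N⟩ := h.max_exists_not_mem M
  refine arith_main h.p_prime hp3 h.m_even h.m_dvd h.m_odd ⟨d, hd1, hyd⟩ ?_ hu.pos
    (h.claim_B M hu hA) hb
  intro hyp
  rw [hyp] at hy
  have h1 := h.claim_C M hy hσ₀
  have h2 := (h.comm_rule_max M hu hσ₀ hσ₀N (p - 1)).1 h1
  have h3 : D.m ∣ p - 1 := (h.claim_B M hu hA (p - 1)).1 h2
  have h4 : D.m ∣ (p + 1) - (p - 1) := Nat.dvd_sub h.m_dvd h3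
  have h5 : (p + 1) - (p - 1) = 2 := by omega
  rwa [h5] at h4

theorem i_eq_p [Finite Γ] {N : Subgroup Γ} (M : IsMaxNormal D N) {σ : Γ} (hσ : σ ∈ D.W)
    (hσN : σ ∉ N) : D.i N σ = p := by
  obtain ⟨u, hu⟩ := h.exists_break M
  rw [h.i_eq_of_break M hu hσ hσN, (h.break_eq M hu).1]
  have := h.p_ge_three
  omega

theorem m_ne_two_of_max [Finite Γ] {N : Subgroup Γ} (M : IsMaxNormal D N) : D.m ≠ 2 := by
  obtain ⟨u, hu⟩ := h.exists_break M
  exact (h.break_eq M hu).2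

end Hyp

end Fermat.Agent.S56.H846.FLCnt
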